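import Fermat.Agent.GroupSieve.Equidistribution
import Mathlib.Data.Nat.Choose.Factorization
import Mathlib.Data.Nat.Prime.Basic
import Mathlib.Analysis.SpecificLimits.Basic

/-!
# The large sieve in a group

If the words are equidistributed in every product of two finite quotients indexed by primes, those
with image in a set of density at most `1 - η` for every prime are exponentially rare.
-/

set_option autoImplicit false

noncomputable section

namespace FA.GroupSieve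

open Finset
open scoped Classical

/-- Chebyshev: at least `2 ^ k` primes lie in `(2 ^ k, 2 ^ (2 k)]`. -/
theorem two_pow_le_card_primes {k : ℕ} (hk : 5 ≤ k) :
    2 ^ k ≤ #((Ioc (2 ^ k) (2 ^ (2 * k))).filter Nat.Prime) := by
  set P := (Ioc (2 ^ k) (2 ^ (2 * k))).filter Nat.Prime
  set n := 2 ^ (2 * k - 1) with hn
  have h2n : 2 * n = 2 ^ (2 * k) := by
    rw [hn, ← pow_succ', show 2 * k - 1 + 1 = 2 * k by omega]
  have hn4 : 4 ≤ n := le_trans (le_of_eq (by norm_num)) (Nat.pow_le_pow_right two_pos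
    (show 2 ≤ 2 * k - 1 by omega))
  set Q := (range (2 * n + 1)).filter Nat.Prime
  have hbinom : n.centralBinom ≤ (2 * n) ^ #Q := by
    calc n.centralBinom = ∏ p ∈ range (2 * n + 1), p ^ n.centralBinom.factorization p :=
          (Nat.prod_pow_factorization_centralBinom n).symm
      _ = ∏ p ∈ Q, p ^ n.centralBinom.factorization p := by
          refine (prod_subset (filter_subset _ _) fun p hp hpQ => ?_).symm
          rw [Nat.factorization_eq_zero_of_not_prime _ fun h => hpQ (mem_filter.2 ⟨hp, h⟩),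
            pow_zero]
      _ ≤ (2 * n) ^ #Q := prod_le_pow_card _ _ _ fun p _ =>
          Nat.pow_factorization_choose_le (by omega)
  have hQ : #Q ≤ 2 ^ k + 1 + #P := by
    refine le_trans (card_le_card fun p hp => ?_) ((card_union_le (range (2 ^ k + 1)) P).trans
      (by rw [card_range]))
    simp only [Q, P, mem_filter, mem_range, mem_union, mem_Ioc, h2n] at hp ⊢
    rcases Nat.lt_or_ge p (2 ^ k + 1) with h | h
    · exact .inl h
    · exact .inr ⟨⟨by omega, by omega⟩, hp.2⟩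
  have hmain : 2 * n < 2 * k * (#Q + 1) := by
    refine (Nat.pow_lt_pow_iff_right one_lt_two).1 ?_
    calc 2 ^ (2 * n) = 4 ^ n := by rw [pow_mul]; norm_num
      _ < n * n.centralBinom := Nat.four_pow_lt_mul_centralBinom n hn4
      _ ≤ 2 * n * (2 * n) ^ #Q := Nat.mul_le_mul (by omega) hbinom
      _ = _ := by rw [h2n, ← pow_mul, ← pow_add]; ring_nf
  have h6 : ∀ k, 5 ≤ k → 6 * k ≤ 2 ^ k := by
    intro k hk
    induction k, hk using Nat.le_induction with
    | base => norm_num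
    | succ k hk ih => rw [pow_succ]; omega
  by_contra! hlt
  have h := hmain.trans_le (Nat.mul_le_mul_left (2 * k)
    (show #Q + 1 ≤ 2 * 2 ^ k + 1 by omega))
  rw [h2n, two_mul k, pow_add] at h
  have h32 : 32 ≤ 2 ^ k := by
    have := Nat.pow_le_pow_right two_pos hk
    simpa using this
  nlinarith [Nat.mul_le_mul_right (2 ^ k) (h6 k hk)]

/-- The second moment. -/
theorem card_mul_sq_le {W ι : Type*} [Fintype W] (P : Finset ι) (E : ι → W → Prop)
    [∀ p, DecidablePred (E p)]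
    {δ : ι → ℝ} {η : ℝ} (hη : 0 ≤ η) (hδ0 : ∀ p ∈ P, 0 ≤ δ p) (hδ : ∀ p ∈ P, δ p ≤ 1 - η)
    {err : ℝ} (herr : 0 ≤ err)
    (hone : ∀ p ∈ P, |(#(univ.filter (E p)) : ℝ) - δ p * Fintype.card W| ≤ err)
    (htwo : ∀ p ∈ P, ∀ q ∈ P, p ≠ q →
      |(#(univ.filter fun w => E p w ∧ E q w) : ℝ) - δ p * δ q * Fintype.card W| ≤ err)
    (A : Finset W) (hA : ∀ w ∈ A, ∀ p ∈ P, E p w) :
    (#A : ℝ) * (η * #P) ^ 2 ≤ #P * Fintype.card W + 3 * err * (#P : ℝ) ^ 2 := by
  set M : ℝ := (Fintype.card W : ℝ)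
  set I : ι → W → ℝ := fun p w => (if E p w then 1 else 0) - δ p
  have hlow : (#A : ℝ) * (η * #P) ^ 2 ≤ ∑ w, (∑ p ∈ P, I p w) ^ 2 := by
    refine le_trans ?_ (sum_le_sum_of_subset_of_nonneg (subset_univ A) fun w _ _ => sq_nonneg _)
    refine le_trans (le_of_eq (nsmul_eq_mul _ _).symm) (card_nsmul_le_sum _ _ _ fun w hw => ?_)
    refine pow_le_pow_left₀ (by positivity) ?_ 2
    refine le_trans (le_of_eq ?_) (card_nsmul_le_sum P _ η fun p hp => ?_)
    · rw [nsmul_eq_mul]; ring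
    · simp only [I, if_pos (hA w hw p hp)]
      linarith [hδ p hp]
  have hterm : ∀ p ∈ P, ∀ q ∈ P, ∑ w, I p w * I q w ≤ (if p = q then M else 0) + 3 * err := by
    intro p hp q hq
    split_ifs with h
    · refine le_trans (sum_le_card_nsmul univ _ 1 fun w _ => ?_)
        (by rw [nsmul_eq_mul, mul_one, card_univ]; linarith)
      subst h
      have hd0 := hδ0 p hp
      have hd := hδ p hp
      simp only [I]
      split_ifs <;> nlinarith
    have e : ∑ w, I p w * I q w = (#(univ.filter fun w => E p w ∧ E q w) : ℝ) -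
        δ q * #(univ.filter (E p)) - δ p * #(univ.filter (E q)) + δ p * δ q * M := by
      have e1 : ∀ w, I p w * I q w = (if E p w ∧ E q w then 1 else 0) -
          δ q * (if E p w then 1 else 0) - δ p * (if E q w then 1 else 0) + δ p * δ q := fun w => by
        simp only [I]
        by_cases hp : E p w <;> by_cases hq : E q w <;> simp [hp, hq] <;> ring
      rw [sum_congr rfl fun w _ => e1 w, sum_add_distrib, sum_sub_distrib, sum_sub_distrib,
        ← mul_sum, ← mul_sum, sum_const, card_univ, nsmul_eq_mul, sum_boole, sum_boole, sum_boole]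
      simp only [M]
      ring
    have hp1 := abs_le.1 (hone p hp)
    have hq1 := abs_le.1 (hone q hq)
    have hpq := abs_le.1 (htwo p hp q hq h)
    have k1 := mul_le_mul_of_nonneg_left hp1.1 (hδ0 q hq)
    have k2 := mul_le_mul_of_nonneg_left hq1.1 (hδ0 p hp)
    have k3 := mul_le_mul_of_nonneg_right ((hδ q hq).trans (by linarith : 1 - η ≤ 1)) herr
    have k4 := mul_le_mul_of_nonneg_right ((hδ p hp).trans (by linarith : 1 - η ≤ 1)) herr
    rw [e]
    nlinarith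
  have hup : ∑ w, (∑ p ∈ P, I p w) ^ 2 ≤ #P * M + 3 * err * (#P : ℝ) ^ 2 := by
    calc ∑ w, (∑ p ∈ P, I p w) ^ 2 = ∑ p ∈ P, ∑ q ∈ P, ∑ w, I p w * I q w := by
          simp only [sq, sum_mul_sum]
          rw [sum_comm]
          exact sum_congr rfl fun p _ => sum_comm
      _ ≤ ∑ p ∈ P, ∑ q ∈ P, ((if p = q then M else 0) + 3 * err) :=
          sum_le_sum fun p hp => sum_le_sum fun q hq => hterm p hp q hq
      _ = _ := by simp [sum_add_distrib, sum_ite_eq]; ring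
  exact hlow.trans hup

/-- A rate absorbing the size of the quotients. -/
theorem exists_sieve_rate {θ : ℝ} (hθ0 : 0 < θ) (hθ1 : θ < 1) (D : ℕ) :
    ∃ (R : ℕ) (ρ : ℝ), 0 < R ∧ 0 < ρ ∧ ρ < 1 ∧
      ∀ n, ((2 : ℝ) ^ D) ^ (n / R) * θ ^ n ≤ (1 / 2) ^ (n / R) ∧
        (1 / 2 : ℝ) ^ (n / R) ≤ 2 * ρ ^ n := by
  obtain ⟨R', hR'⟩ := exists_pow_lt_of_lt_one
    (show (0 : ℝ) < 1 / 2 ^ (D + 1) by positivity) hθ1
  set R := R' + 1
  have hθR : θ ^ R ≤ 1 / 2 ^ (D + 1) :=
    (pow_le_pow_of_le_one hθ0.le hθ1.le (by omega)).trans hR'.le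
  set ρ : ℝ := 1 - 1 / (2 * R) with hρ
  have hRpos : (1 : ℝ) ≤ R := by simp [R]
  have hρ2 : 1 / (2 * (R : ℝ)) ≤ 1 / 2 := one_div_le_one_div_of_le two_pos (by linarith)
  have hρ0 : 0 < ρ := by linarith
  have hρ1 : ρ < 1 := by
    have : 0 < 1 / (2 * (R : ℝ)) := by positivity
    linarith
  have hρR : 1 / 2 ≤ ρ ^ R := by
    refine le_trans (le_of_eq ?_) (one_add_mul_le_pow (a := -(1 / (2 * (R : ℝ)))) (by linarith) R)
      |>.trans (le_of_eq ?_)
    · field_simp; ring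
    · rw [hρ, sub_eq_add_neg]
  refine ⟨R, ρ, by omega, hρ0, hρ1, fun n => ⟨?_, ?_⟩⟩
  · calc ((2 : ℝ) ^ D) ^ (n / R) * θ ^ n ≤ ((2 : ℝ) ^ D) ^ (n / R) * (θ ^ R) ^ (n / R) := by
          rw [← pow_mul θ]
          exact mul_le_mul_of_nonneg_left
            (pow_le_pow_of_le_one hθ0.le hθ1.le (Nat.mul_div_le n R)) (by positivity)
      _ ≤ ((2 : ℝ) ^ D) ^ (n / R) * (1 / 2 ^ (D + 1)) ^ (n / R) := by gcongr
      _ = _ := by
          rw [← mul_pow, pow_succ]
          field_simp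
  · conv_rhs => rw [← Nat.div_add_mod n R, pow_add, pow_mul]
    calc (1 / 2 : ℝ) ^ (n / R) ≤ (ρ ^ R) ^ (n / R) := pow_le_pow_left₀ (by norm_num) hρR _
      _ = (ρ ^ R) ^ (n / R) * 1 := (mul_one _).symm
      _ ≤ (ρ ^ R) ^ (n / R) * (2 * ρ ^ (n % R)) := by
          refine mul_le_mul_of_nonneg_left ?_ (by positivity)
          linarith [pow_le_pow_of_le_one hρ0.le hρ1.le (Nat.mod_lt n (show 0 < R by omega)).le]
      _ = _ := by ring

variable {Γ : Type*} [Group Γ] {S : Finset Γ}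

/-- The error for two quotients of order at most `B`. -/
theorem pair_bound {G₁ G₂ : Type*} [Group G₁] [Group G₂] [Fintype G₁] [Fintype G₂]
    (π₁ : Γ →* G₁) (π₂ : Γ →* G₂) {n B : ℕ} {ε : ℝ} (h₁ : Fintype.card G₁ ≤ B)
    (h₂ : Fintype.card G₂ ≤ B) (hε : 0 ≤ ε) (h : ∀ z, |hits (π₁.prod π₂) S n z -
      (#S : ℝ) ^ n / Fintype.card (G₁ × G₂)| ≤ ε) (T₁ : Finset G₁) (T₂ : Finset G₂) :
    |(#(univ.filter fun w : Fin n → S => π₁ (wordProd w) ∈ T₁ ∧ π₂ (wordProd w) ∈ T₂) : ℝ) -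
      #T₁ / Fintype.card G₁ * (#T₂ / Fintype.card G₂) * (#S : ℝ) ^ n| ≤ (B : ℝ) ^ 2 * ε := by
  have hb := abs_sum_hits_sub_le (π₁.prod π₂) (T₁ ×ˢ T₂) n h
  rw [card_product, Fintype.card_prod, Nat.cast_mul, Nat.cast_mul, mul_div_mul_comm] at hb
  simp only [mem_product, MonoidHom.prod_apply] at hb
  refine hb.trans (mul_le_mul_of_nonneg_right ?_ hε)
  rw [sq]
  exact mul_le_mul (Nat.cast_le.2 ((card_le_univ _).trans h₁))
    (Nat.cast_le.2 ((card_le_univ _).trans h₂)) (Nat.cast_nonneg _) (Nat.cast_nonneg _)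

variable {G : Nat.Primes → Type*} [∀ p, Group (G p)] [∀ p, Fintype (G p)]

/-- **The large sieve in a group.** -/
theorem large_sieve (π : ∀ p, Γ →* G p) {D N : ℕ}
    (hD : ∀ p, Fintype.card (G p) ≤ (p : ℕ) ^ D) {θ : ℝ} (hθ0 : 0 < θ) (hθ1 : θ < 1)
    (hequi : ∀ p q : Nat.Primes, N < q → (q : ℕ) < p → (p : ℕ) ≤ (q : ℕ) ^ 2 → ∀ n z,
      |hits ((π p).prod (π q)) S n z - (#S : ℝ) ^ n / Fintype.card (G p × G q)| ≤
        (#S : ℝ) ^ n * θ ^ n)
    {η : ℝ} (hη : 0 < η) :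
    ∃ C ρ : ℝ, 0 < ρ ∧ ρ < 1 ∧ ∀ bad : ∀ p, Finset (G p),
      (∀ p : Nat.Primes, N < p → (#(bad p) : ℝ) ≤ (1 - η) * Fintype.card (G p)) →
      ∀ (n : ℕ) (A : Finset (Fin n → S)),
        (∀ w ∈ A, ∀ p : Nat.Primes, N < p → π p (wordProd w) ∈ bad p) →
        (#A : ℝ) ≤ C * ρ ^ n * (#S : ℝ) ^ n := by
  obtain ⟨R, ρ, hR, hρ0, hρ1, hrate⟩ := exists_sieve_rate hθ0 hθ1 (4 * D)
  set k₀ := N + 5
  refine ⟨8 / η ^ 2 + (ρ ^ (R * k₀))⁻¹, ρ, hρ0, hρ1, fun bad hbad n A hA => ?_⟩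
  set M : ℝ := (#S : ℝ) ^ n
  have hM : (Fintype.card (Fin n → S) : ℝ) = M := by simp [M]
  have hM0 : 0 ≤ M := by positivity
  obtain ⟨herr', hhalf⟩ := hrate n
  set k := n / R
  rcases Nat.lt_or_ge k k₀ with hk | hk
  · have hn : n ≤ R * k₀ := by
      have h1 : R * k + n % R = n := Nat.div_add_mod n R
      have h2 := Nat.mod_lt n hR
      have := Nat.mul_le_mul_left R (show k + 1 ≤ k₀ by omega)
      rw [mul_add, mul_one] at this
      omega
    refine le_trans (show (#A : ℝ) ≤ M by rw [← hM]; exact_mod_cast card_le_univ A)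
      (le_mul_of_one_le_left hM0 ?_)
    calc (1 : ℝ) = (ρ ^ (R * k₀))⁻¹ * ρ ^ (R * k₀) := (inv_mul_cancel₀ (pow_pos hρ0 _).ne').symm
      _ ≤ (8 / η ^ 2 + (ρ ^ (R * k₀))⁻¹) * ρ ^ n := by
          refine mul_le_mul ?_ (pow_le_pow_of_le_one hρ0.le hρ1.le hn) (by positivity)
            (by positivity)
          have : 0 ≤ 8 / η ^ 2 := by positivity
          linarith
  obtain ⟨Ps, hcard, hPs⟩ : ∃ Ps : Finset Nat.Primes, 2 ^ k ≤ #Ps ∧
      ∀ p ∈ Ps, 2 ^ k < (p : ℕ) ∧ (p : ℕ) ≤ 2 ^ (2 * k) := by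
    refine ⟨((Ioc (2 ^ k) (2 ^ (2 * k))).subtype Nat.Prime), ?_, fun p hp => ?_⟩
    · exact (two_pow_le_card_primes (by omega)).trans_eq (card_subtype Nat.Prime _).symm
    · exact mem_Ioc.1 (mem_subtype.1 hp)
  have hN : N < 2 ^ k := lt_of_le_of_lt (by omega) (Nat.lt_two_pow_self (n := k))
  set err : ℝ := M * (1 / 2) ^ k
  have hpair : ∀ p ∈ Ps, ∀ q ∈ Ps, p ≠ q → ∀ (T₁ : Finset (G p)) (T₂ : Finset (G q)),
      |(#(univ.filter fun w : Fin n → S => π p (wordProd w) ∈ T₁ ∧ π q (wordProd w) ∈ T₂) : ℝ) -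
        #T₁ / Fintype.card (G p) * (#T₂ / Fintype.card (G q)) * M| ≤ err := by
    have key : ∀ p ∈ Ps, ∀ q ∈ Ps, (q : ℕ) < p → ∀ (T₁ : Finset (G p)) (T₂ : Finset (G q)),
        |(#(univ.filter fun w : Fin n → S => π p (wordProd w) ∈ T₁ ∧ π q (wordProd w) ∈ T₂) : ℝ) -
          #T₁ / Fintype.card (G p) * (#T₂ / Fintype.card (G q)) * M| ≤ err := by
      intro p hp q hq hqp T₁ T₂
      refine (pair_bound (π p) (π q) ((hD p).trans (Nat.pow_le_pow_left (hPs p hp).2 D))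
        ((hD q).trans (Nat.pow_le_pow_left (hPs q hq).2 D)) (by positivity)
        (hequi p q (hN.trans (hPs q hq).1) hqp ((hPs p hp).2.trans (by
          rw [mul_comm, pow_mul]
          exact Nat.pow_le_pow_left (hPs q hq).1.le 2)) n) T₁ T₂).trans ?_
      calc (((2 ^ (2 * k)) ^ D : ℕ) : ℝ) ^ 2 * (M * θ ^ n)
          = M * (((2 : ℝ) ^ (4 * D)) ^ k * θ ^ n) := by push_cast; ring
        _ ≤ err := mul_le_mul_of_nonneg_left herr' hM0
    intro p hp q hq hne T₁ T₂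
    rcases lt_or_gt_of_ne (fun h => hne (Subtype.ext h) : (p : ℕ) ≠ q) with hlt | hlt
    · rw [filter_congr fun w _ => and_comm, mul_comm (_ / _ : ℝ) (_ / _)]
      exact key q hq p hp hlt T₂ T₁
    · exact key p hp q hq hlt T₁ T₂
  set δ : Nat.Primes → ℝ := fun p => #(bad p) / Fintype.card (G p)
  have hδ : ∀ p ∈ Ps, δ p ≤ 1 - η := fun p hp => by
    rw [div_le_iff₀ (Nat.cast_pos.2 Fintype.card_pos)]
    exact hbad p (hN.trans (hPs p hp).1)
  have hone : ∀ p ∈ Ps, |(#(univ.filter fun w : Fin n → S => π p (wordProd w) ∈ bad p) : ℝ) -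
      δ p * Fintype.card (Fin n → S)| ≤ err := by
    intro p hp
    obtain ⟨q, hq, hne⟩ := exists_mem_ne (show 1 < #Ps by
      have := Nat.pow_le_pow_right two_pos (show 1 ≤ k by omega)
      omega) p
    have := hpair p hp q hq hne.symm (bad p) univ
    simp only [mem_univ, and_true] at this
    rwa [card_univ, div_self (Nat.cast_ne_zero.2 Fintype.card_ne_zero), mul_one, ← hM] at this
  have htwo : ∀ p ∈ Ps, ∀ q ∈ Ps, p ≠ q → |(#(univ.filter fun w : Fin n → S =>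
      π p (wordProd w) ∈ bad p ∧ π q (wordProd w) ∈ bad q) : ℝ) -
      δ p * δ q * Fintype.card (Fin n → S)| ≤ err :=
    fun p hp q hq hne => by rw [hM]; exact hpair p hp q hq hne (bad p) (bad q)
  have hmom := card_mul_sq_le (W := Fin n → S) Ps (fun p w => π p (wordProd w) ∈ bad p)
    (δ := δ) hη.le (fun p _ => by positivity) hδ (err := err) (by positivity) hone htwo A
    (fun w hw p hp => hA w hw p (hN.trans (hPs p hp).1))
  rw [hM] at hmom
  set r : ℝ := (#Ps : ℝ)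
  have hr : (2 : ℝ) ^ k ≤ r := by
    show (2 : ℝ) ^ k ≤ ((#Ps : ℕ) : ℝ)
    exact_mod_cast hcard
  have hr0 : 0 < r := lt_of_lt_of_le (by positivity) hr
  have hMr : M ≤ err * r := by
    calc M = err * 2 ^ k := by
          simp only [err]
          rw [mul_assoc, ← mul_pow]
          norm_num
      _ ≤ err * r := mul_le_mul_of_nonneg_left hr (by positivity)
  have hA' : (#A : ℝ) * η ^ 2 ≤ 4 * err := by
    refine le_of_mul_le_mul_right ?_ (pow_pos hr0 2)
    nlinarith [mul_le_mul_of_nonneg_right hMr hr0.le]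
  calc (#A : ℝ) ≤ 4 / η ^ 2 * err := by
        rw [div_mul_eq_mul_div, le_div_iff₀ (by positivity)]
        exact hA'
    _ ≤ 4 / η ^ 2 * (M * (2 * ρ ^ n)) := by
        simp only [err]
        gcongr
    _ = 8 / η ^ 2 * ρ ^ n * M := by ring
    _ ≤ _ := by
        refine mul_le_mul_of_nonneg_right ?_ hM0
        nlinarith [inv_pos.2 (pow_pos hρ0 (R * k₀)), pow_pos hρ0 n]

end FA.GroupSieve

end
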