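import Fermat.Agent.BourgainGamburd.Main

/-!
# Equidistribution of words from a gap

If a finite set containing `1` moves every function of mean zero on a finite group, the words of
length `n` are equidistributed there up to an error which decreases geometrically in `n`.
-/

set_option autoImplicit false

noncomputable section

namespace FA.GroupSieve

open FA.BourgainGamburd Finset
open scoped Classical

variable {Γ G : Type*} [Group Γ] [Group G] [Fintype G] {S : Finset Γ}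

/-- The product of a word. -/
def wordProd {n : ℕ} (w : Fin n → S) : Γ := (List.ofFn fun i => (w i : Γ)).prod

/-- The number of words of length `n` with image `z`. -/
def hits (π : Γ →* G) (S : Finset Γ) (n : ℕ) (z : G) : ℝ :=
  (#(univ.filter fun w : Fin n → S => π (wordProd w) = z) : ℝ)

omit [Fintype G] in
theorem hits_zero (π : Γ →* G) (S : Finset Γ) (z : G) :
    hits π S 0 z = if z = 1 then 1 else 0 := by
  rw [hits]
  split_ifs with h <;> simp [wordProd, h, eq_comm]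

omit [Fintype G] in
theorem hits_succ (π : Γ →* G) (S : Finset Γ) (n : ℕ) (z : G) :
    hits π S (n + 1) z = ∑ s ∈ S, hits π S n ((π s)⁻¹ * z) := by
  have e : #(univ.filter fun w : Fin (n + 1) → S => π (wordProd w) = z) =
      #(univ.filter fun x : S × (Fin n → S) => π (wordProd x.2) = (π x.1)⁻¹ * z) := by
    refine (card_equiv (Fin.consEquiv fun _ : Fin (n + 1) => S) fun x => ?_).symm
    simp [wordProd, List.ofFn_succ, eq_inv_mul_iff_mul_eq]
  rw [hits, e, ← univ_product_univ, card_filter, sum_product, Nat.cast_sum,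
    ← sum_coe_sort S fun s => hits π S n ((π s)⁻¹ * z)]
  refine sum_congr rfl fun s _ => ?_
  rw [hits, card_filter]

/-- One step of averaging contracts. -/
theorem sum_avg_sq_le (π : Γ →* G) (h1 : (1 : Γ) ∈ S) {c : ℝ} {f : G → ℝ}
    (hgap : ∃ s ∈ S, c * ∑ x, f x ^ 2 ≤ disp (π s) f) :
    2 * ∑ x, (∑ s ∈ S, f ((π s)⁻¹ * x)) ^ 2 ≤ (2 * (#S : ℝ) ^ 2 - c) * ∑ x, f x ^ 2 := by
  obtain ⟨s₀, hs₀, hc⟩ := hgap
  set a : Γ → G → ℝ := fun s x => f ((π s)⁻¹ * x)
  have htrans : ∀ s, ∑ x, a s x ^ 2 = ∑ x, f x ^ 2 := fun s =>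
    Fintype.sum_equiv (Equiv.mulLeft (π s)⁻¹) _ _ fun x => rfl
  have hsq : ∀ x, ∑ s ∈ S, ∑ t ∈ S, (a s x - a t x) ^ 2 =
      2 * (#S : ℝ) * ∑ s ∈ S, a s x ^ 2 - 2 * (∑ s ∈ S, a s x) ^ 2 := fun x => by
    simp only [sub_sq, sum_add_distrib, sum_sub_distrib, sum_const, nsmul_eq_mul, ← mul_sum,
      ← sum_mul]
    ring
  have hlow : disp (π s₀) f ≤ ∑ x, ∑ s ∈ S, ∑ t ∈ S, (a s x - a t x) ^ 2 := by
    refine sum_le_sum fun x _ => ?_
    refine le_trans (le_of_eq ?_) ((single_le_sum (f := fun t => (a s₀ x - a t x) ^ 2)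
      (fun t _ => sq_nonneg _) h1).trans
      (single_le_sum (f := fun s => ∑ t ∈ S, (a s x - a t x) ^ 2)
        (fun s _ => sum_nonneg fun t _ => sq_nonneg _) hs₀))
    simp [a]
  simp only [hsq, sum_sub_distrib, ← mul_sum] at hlow
  rw [sum_comm, sum_congr rfl fun s _ => htrans s, sum_const, nsmul_eq_mul] at hlow
  linarith

/-- **Equidistribution of words.** -/
theorem abs_hits_sub_le (π : Γ →* G) (h1 : (1 : Γ) ∈ S) {c θ : ℝ} (hθ0 : 0 ≤ θ)
    (hθ : 2 * (#S : ℝ) ^ 2 - c ≤ 2 * (#S : ℝ) ^ 2 * θ ^ 2)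
    (hgap : ∀ f : G → ℝ, ∑ x, f x = 0 → ∃ s ∈ S, c * ∑ x, f x ^ 2 ≤ disp (π s) f)
    (n : ℕ) (z : G) :
    |hits π S n z - (#S : ℝ) ^ n / Fintype.card G| ≤ (#S : ℝ) ^ n * θ ^ n := by
  set m : ℝ := (#S : ℝ)
  set g : ℝ := (Fintype.card G : ℝ)
  have hg : g ≠ 0 := Nat.cast_ne_zero.2 Fintype.card_ne_zero
  set v : ℕ → G → ℝ := fun n x => hits π S n x - m ^ n / g with hv
  have hv0 : ∀ x, v 0 x = (if x = 1 then 1 else 0) - 1 / g := fun x => by simp [hv, hits_zero]
  have hsucc : ∀ n x, v (n + 1) x = ∑ s ∈ S, v n ((π s)⁻¹ * x) := fun n x => by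
    simp only [hv, hits_succ, sum_sub_distrib, sum_const, nsmul_eq_mul, pow_succ]
    ring
  have hzero : ∀ n, ∑ x, v n x = 0 := by
    intro n
    induction n with
    | zero => simp [hv0, g, sum_sub_distrib]
    | succ n ih =>
      simp only [hsucc]
      rw [sum_comm]
      refine sum_eq_zero fun s _ => ?_
      rw [← ih]
      exact Fintype.sum_equiv (Equiv.mulLeft (π s)⁻¹) _ _ fun x => rfl
  have hnorm : ∀ n, ∑ x, v n x ^ 2 ≤ (m ^ n * θ ^ n) ^ 2 := by
    intro n
    induction n with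
    | zero =>
      have e : ∀ x, v 0 x ^ 2 = (if x = 1 then 1 - 2 / g else 0) + 1 / g * (1 / g) := fun x => by
        rw [hv0]
        split_ifs <;> ring
      rw [sum_congr rfl fun x _ => e x, sum_add_distrib, sum_ite_eq', if_pos (mem_univ _),
        sum_const, nsmul_eq_mul, card_univ]
      change 1 - 2 / g + g * (1 / g * (1 / g)) ≤ _
      rw [← mul_assoc, mul_one_div_cancel hg, one_mul]
      have : 0 ≤ 1 / g := by positivity
      simp only [pow_zero, mul_one, one_pow]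
      linarith [show 2 / g = 2 * (1 / g) by ring]
    | succ n ih =>
      have hstep := sum_avg_sq_le π h1 (hgap (v n) (hzero n))
      simp only [← hsucc] at hstep
      have hσ : 0 ≤ ∑ x, v n x ^ 2 := sum_nonneg fun _ _ => sq_nonneg _
      have h := hstep.trans (mul_le_mul_of_nonneg_right hθ hσ)
      calc ∑ x, v (n + 1) x ^ 2 ≤ m ^ 2 * θ ^ 2 * ∑ x, v n x ^ 2 := by linarith
        _ ≤ m ^ 2 * θ ^ 2 * (m ^ n * θ ^ n) ^ 2 := mul_le_mul_of_nonneg_left ih (by positivity)
        _ = _ := by ring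
  refine abs_le_of_sq_le_sq ?_ (by positivity)
  exact (single_le_sum (f := fun x => v n x ^ 2) (fun _ _ => sq_nonneg _) (mem_univ z)).trans
    (hnorm n)

/-- The rate belonging to a gap. -/
def rate (S : Finset Γ) (c : ℝ) : ℝ := √(max (1 / 2) (1 - c / (2 * (#S : ℝ) ^ 2)))

omit [Group Γ] in
theorem rate_spec (hS : S.Nonempty) {c : ℝ} (hc : 0 < c) :
    0 < rate S c ∧ rate S c < 1 ∧
      2 * (#S : ℝ) ^ 2 - c ≤ 2 * (#S : ℝ) ^ 2 * rate S c ^ 2 := by
  have hm : (0 : ℝ) < #S := Nat.cast_pos.2 (card_pos.2 hS)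
  set κ := max (1 / 2) (1 - c / (2 * (#S : ℝ) ^ 2))
  have h0 : 0 < κ := lt_of_lt_of_le (by norm_num) (le_max_left _ _)
  have h1 : κ < 1 := max_lt (by norm_num) (by
    have : 0 < c / (2 * (#S : ℝ) ^ 2) := by positivity
    linarith)
  refine ⟨Real.sqrt_pos.2 h0, ?_, ?_⟩
  · rw [rate, Real.sqrt_lt' one_pos, one_pow]
    exact h1
  · rw [rate, Real.sq_sqrt h0.le]
    refine le_trans (le_of_eq ?_) (mul_le_mul_of_nonneg_left (le_max_right _ _) (by positivity))
    field_simp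

/-- The count of words with image in a set. -/
theorem abs_sum_hits_sub_le (π : Γ →* G) (T : Finset G) {ε : ℝ} (n : ℕ)
    (h : ∀ z, |hits π S n z - (#S : ℝ) ^ n / Fintype.card G| ≤ ε) :
    |(#(univ.filter fun w : Fin n → S => π (wordProd w) ∈ T) : ℝ) -
      #T / Fintype.card G * (#S : ℝ) ^ n| ≤ #T * ε := by
  have e : (#(univ.filter fun w : Fin n → S => π (wordProd w) ∈ T) : ℝ) =
      ∑ z ∈ T, hits π S n z := by
    rw [card_eq_sum_card_fiberwise (s := univ.filter fun w : Fin n → S => π (wordProd w) ∈ T)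
      (f := fun w : Fin n → S => π (wordProd w)) (t := T) fun w hw => (mem_filter.1 hw).2,
      Nat.cast_sum]
    refine sum_congr rfl fun z hz => ?_
    rw [hits, filter_filter]
    congr 2
    exact filter_congr fun w _ => ⟨And.right, fun e => ⟨e ▸ hz, e⟩⟩
  rw [e, show (#T : ℝ) / Fintype.card G * (#S : ℝ) ^ n =
    ∑ _z ∈ T, (#S : ℝ) ^ n / Fintype.card G by rw [sum_const, nsmul_eq_mul]; ring,
    ← sum_sub_distrib]
  exact (abs_sum_le_sum_abs _ _).trans ((sum_le_card_nsmul _ _ _ fun z _ => h z).trans_eq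
    (nsmul_eq_mul _ _))

end FA.GroupSieve

end
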