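import Fermat.Agent.GroupSieve.Sieve
import Mathlib.LinearAlgebra.Matrix.Charpoly.Coeff

/-!
# Generic elements of a thin group

Reducible characteristic polynomials, squares and a fixed trace are exponentially rare among the
words in a finite subset of `SL₂ (ℤ)` which generates a group that is not virtually solvable.
-/

set_option autoImplicit false

noncomputable section

namespace FA.GroupSieve

open FA.StrongApprox Finset Matrix
open scoped Classical

variable {p : ℕ} [hp : Fact p.Prime]

/-- A trace class has at most `p ^ 2 + 2 p` elements. -/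
theorem card_trace_le (t : ZMod p) :
    #(univ.filter fun g : SL2 (ZMod p) => g.1.trace = t) ≤ p ^ 2 + 2 * p := by
  set A := univ.filter fun g : SL2 (ZMod p) => g.1.trace = t
  have htr : ∀ g ∈ A, g.1 0 0 + g.1 1 1 = t := fun g hg => by
    rw [← trace_fin_two]
    exact (mem_filter.1 hg).2
  set R := univ.filter fun a : ZMod p => a * (t - a) = 1
  have hR : #R ≤ 2 := by
    by_contra! h
    obtain ⟨a, ha, b, hb, c, hc, hab, hac, hbc⟩ := two_lt_card.1 h
    have hroot : ∀ {x y}, x ∈ R → y ∈ R → x ≠ y → x + y = t := fun {x y} hx hy hxy => by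
      refine sub_eq_zero.1 (((mul_eq_zero (a := x - y)).1 ?_).resolve_left (sub_ne_zero.2 hxy))
      linear_combination -(mem_filter.1 hx).2 + (mem_filter.1 hy).2
    exact hbc (by linear_combination hroot ha hb hab - hroot ha hc hac)
  have h0 : #(A.filter fun g => g.1 0 1 = 0) ≤ 2 * p := by
    refine (card_le_card_of_injOn (fun g => (g.1 0 0, g.1 1 0)) (t := R ×ˢ univ) (fun g hg => ?_)
      fun g hg g' hg' h => ?_).trans ((card_product _ _).trans_le (by
        rw [card_univ, ZMod.card]; exact Nat.mul_le_mul_right p hR))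
    · obtain ⟨hA, hb⟩ := mem_filter.1 hg
      have d := Helfgott.det_eq g
      rw [hb, zero_mul, sub_zero] at d
      refine mem_coe.2 (mem_product.2 ⟨mem_filter.2 ⟨mem_univ _, ?_⟩, mem_univ _⟩)
      show g.1 0 0 * (t - g.1 0 0) = 1
      linear_combination d - g.1 0 0 * htr g hA
    · obtain ⟨hA, hb⟩ := mem_filter.1 hg
      obtain ⟨hA', hb'⟩ := mem_filter.1 hg'
      simp only [Prod.mk.injEq] at h
      refine Subtype.ext (Matrix.ext fun i j => ?_)
      fin_cases i <;> fin_cases j
      · exact h.1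
      · exact hb.trans hb'.symm
      · exact h.2
      · show g.1 1 1 = g'.1 1 1
        linear_combination htr g hA - htr g' hA' - h.1
  have h1 : #(A.filter fun g => ¬g.1 0 1 = 0) ≤ p ^ 2 := by
    refine (card_le_card_of_injOn (fun g => (g.1 0 0, g.1 0 1)) (t := univ) (fun g _ => by simp)
      fun g hg g' hg' h => ?_).trans (le_of_eq (by
        rw [card_univ, Fintype.card_prod, ZMod.card, sq]))
    obtain ⟨hA, hb⟩ := mem_filter.1 hg
    obtain ⟨hA', -⟩ := mem_filter.1 hg'
    simp only [Prod.mk.injEq] at h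
    have hd : g.1 1 1 = g'.1 1 1 := by linear_combination htr g hA - htr g' hA' - h.1
    refine Subtype.ext (Matrix.ext fun i j => ?_)
    fin_cases i <;> fin_cases j
    · exact h.1
    · exact h.2
    · show g.1 1 0 = g'.1 1 0
      refine mul_left_cancel₀ hb ?_
      have d := Helfgott.det_eq g
      have d' := Helfgott.det_eq g'
      rw [← h.1, ← h.2, ← hd] at d'
      linear_combination d' - d
    · exact hd
  have := card_filter_add_card_filter_not (s := A) fun g => g.1 0 1 = 0
  omega

/-- Pairing parameters halves a set of traces. -/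
theorem two_mul_card_le {T : Finset (ZMod p)} (f σ : ZMod p → ZMod p)
    (h : ∀ τ ∈ T, ∃ u, σ u ≠ u ∧ f u = τ ∧ f (σ u) = τ) : 2 * #T ≤ p := by
  choose! u hu hf hfσ using h
  have := card_le_card_of_injOn (s := T ×ˢ (univ : Finset Bool))
    (t := (univ : Finset (ZMod p))) (fun z => if z.2 then u z.1 else σ (u z.1))
    (fun _ _ => by simp) fun z hz z' hz' e => ?_
  · simpa [mul_comm] using this
  simp only [coe_product, Set.mem_prod, mem_coe, mem_univ, and_true] at hz hz'
  obtain ⟨τ, b⟩ := z
  obtain ⟨τ', b'⟩ := z'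
  have hval : ∀ x ∈ T, ∀ c : Bool, f (if c then u x else σ (u x)) = x := fun x hx c => by
    cases c <;> simp [hf x hx, hfσ x hx]
  obtain rfl : τ = τ' := (hval τ hz b).symm.trans ((congrArg f e).trans (hval τ' hz' b'))
  cases b <;> cases b' <;> simp at e ⊢
  · exact hu τ hz e
  · exact hu τ hz e.symm

theorem two_ne_zero_zmod (hp2 : 2 < p) : (2 : ZMod p) ≠ 0 := fun h => by
  have : ((2 : ℕ) : ZMod p) = 0 := by exact_mod_cast h
  rw [ZMod.natCast_eq_zero_iff] at this
  exact absurd (Nat.le_of_dvd two_pos this) (by omega)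

/-- Few traces make a small set. -/
theorem small_of_traces (hp16 : 16 < p) {T : Finset (ZMod p)} (hT : 2 * #T ≤ p + 4) :
    4 * #(univ.filter fun g : SL2 (ZMod p) => g.1.trace ∈ T) ≤
      3 * Fintype.card (SL2 (ZMod p)) := by
  have h := card_le_mul_card_image_of_maps_to
    (f := fun g : SL2 (ZMod p) => g.1.trace)
    (s := univ.filter fun g : SL2 (ZMod p) => g.1.trace ∈ T) (t := T)
    (fun g hg => (mem_filter.1 hg).2) (p ^ 2 + 2 * p)
    fun t _ => (card_le_card (filter_subset_filter _ (subset_univ _))).trans (card_trace_le t)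
  have hc := Helfgott.le_card_SL2 (p := p)
  obtain ⟨m, rfl⟩ : ∃ m, p = m + 1 := ⟨p - 1, by omega⟩
  rw [Nat.add_sub_cancel] at hc
  nlinarith [Nat.mul_le_mul_left ((m + 1) ^ 2 + 2 * (m + 1)) hT]

/-- The traces of the reducible elements. -/
theorem card_traces_reducible (hp16 : 16 < p) :
    2 * #(univ.filter fun τ : ZMod p => IsSquare (τ ^ 2 - 4)) ≤ p + 4 := by
  have h2 : (2 : ZMod p) ≠ 0 := two_ne_zero_zmod (by omega)
  set T := univ.filter fun τ : ZMod p => IsSquare (τ ^ 2 - 4)
  have hT : 2 * #(T \ {2, -2}) ≤ p := by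
    refine two_mul_card_le (fun u => u + u⁻¹) (·⁻¹) fun τ hτ => ?_
    obtain ⟨hτ, hne⟩ := mem_sdiff.1 hτ
    obtain ⟨d, hd⟩ := (mem_filter.1 hτ).2
    simp only [mem_insert, mem_singleton, not_or] at hne
    have hinv : ((τ + d) / 2)⁻¹ = (τ - d) / 2 :=
      inv_eq_of_mul_eq_one_right (by field_simp; linear_combination hd)
    refine ⟨(τ + d) / 2, ?_, ?_, ?_⟩
    · rw [hinv]
      intro e
      field_simp at e
      have hd0 : d = 0 := by
        refine ((mul_eq_zero (a := (2 : ZMod p))).1 ?_).resolve_left h2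
        linear_combination -e
      rw [hd0, mul_zero] at hd
      rcases mul_eq_zero.1 (show (τ - 2) * (τ + 2) = 0 by linear_combination hd) with h | h
      · exact hne.1 (sub_eq_zero.1 h)
      · exact hne.2 (eq_neg_of_add_eq_zero_left h)
    · rw [hinv]; field_simp; ring
    · rw [inv_inv, hinv]; field_simp; ring
  have := card_le_card_sdiff_add_card (s := T) (t := ({2, -2} : Finset (ZMod p)))
  have : #({2, -2} : Finset (ZMod p)) ≤ 2 := card_le_two
  omega

/-- The traces of the squares. -/
theorem card_traces_square (hp16 : 16 < p) :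
    2 * #(univ.filter fun τ : ZMod p => IsSquare (τ + 2)) ≤ p + 4 := by
  have h2 : (2 : ZMod p) ≠ 0 := two_ne_zero_zmod (by omega)
  set T := univ.filter fun τ : ZMod p => IsSquare (τ + 2)
  have hT : 2 * #(T \ {-2}) ≤ p := by
    refine two_mul_card_le (fun u => u * u - 2) (fun u => -u) fun τ hτ => ?_
    obtain ⟨hτ, hne⟩ := mem_sdiff.1 hτ
    obtain ⟨d, hd⟩ := (mem_filter.1 hτ).2
    refine ⟨d, fun e => hne (mem_singleton.2 ?_), by linear_combination -hd,
      by linear_combination -hd⟩
    have hd0 : d = 0 := by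
      refine ((mul_eq_zero (a := (2 : ZMod p))).1 ?_).resolve_left h2
      linear_combination -e
    rw [hd0, mul_zero] at hd
    exact eq_neg_of_add_eq_zero_left hd
  have := card_le_card_sdiff_add_card (s := T) (t := ({-2} : Finset (ZMod p)))
  rw [card_singleton] at this
  omega

theorem trace_red (g : SL2 ℤ) : (red p g).1.trace = ((g.1.trace : ℤ) : ZMod p) := by
  simp [trace_fin_two]

/-- The trace of a square. -/
theorem trace_mul_self_add_two (h : SL2 ℤ) : (h * h).1.trace + 2 = h.1.trace * h.1.trace := by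
  have d := Matrix.det_fin_two h.1
  rw [h.2] at d
  show (h.1 * h.1).trace + 2 = h.1.trace * h.1.trace
  simp only [trace_fin_two, Matrix.mul_apply, Fin.sum_univ_two]
  linear_combination 2 * d

/-- A reducible characteristic polynomial has a square discriminant. -/
theorem isSquare_of_not_irreducible {g : SL2 ℤ} (h : ¬ Irreducible g.1.charpoly) :
    IsSquare (g.1.trace ^ 2 - 4) := by
  obtain ⟨c₁, c₂, h0, h1⟩ :=
    ((Matrix.charpoly_monic g.1).not_irreducible_iff_exists_add_mul_eq_coeff
    (by rw [Matrix.charpoly_natDegree_eq_dim, Fintype.card_fin])).1 h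
  rw [Matrix.charpoly_fin_two, g.2] at h0 h1
  simp [Polynomial.coeff_X, Polynomial.coeff_one] at h0 h1
  refine ⟨c₁ - c₂, ?_⟩
  rw [show g.1.trace = -(c₁ + c₂) by linarith]
  linear_combination -4 * h0

variable {S : Finset (SL2 ℤ)}

/-- **Generic elements.** -/
theorem generic_elements (h1 : (1 : SL2 ℤ) ∈ S)
    (h : ¬ VirtSolvable (Subgroup.closure (S : Set (SL2 ℤ)))) :
    ∃ C ρ : ℝ, 0 < ρ ∧ ρ < 1 ∧ ∀ n,
      (#(univ.filter fun w : Fin n → S => IsSquare ((wordProd w).1.trace ^ 2 - 4)) : ℝ) ≤
          C * ρ ^ n * (#S : ℝ) ^ n ∧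
        (#(univ.filter fun w : Fin n → S => ∃ h : SL2 ℤ, wordProd w = h * h) : ℝ) ≤
          C * ρ ^ n * (#S : ℝ) ^ n ∧
        ∀ t : ℤ, (#(univ.filter fun w : Fin n → S => (wordProd w).1.trace = t) : ℝ) ≤
          C * ρ ^ n * (#S : ℝ) ^ n := by
  obtain ⟨C, ρ, h0, hlt, hs⟩ := sieve h1 h
  refine ⟨C, ρ, h0, hlt, fun n => ⟨?_, ?_, fun t => ?_⟩⟩
  · refine hs (fun g => IsSquare (g.1.trace ^ 2 - 4))
      (fun p _ => univ.filter fun g : SL2 (ZMod p) =>
      g.1.trace ∈ univ.filter fun τ : ZMod p => IsSquare (τ ^ 2 - 4))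
      (fun p _ hp => small_of_traces hp (card_traces_reducible hp)) (fun p _ _ g hg => ?_) n _
      fun w hw => (mem_filter.1 hw).2
    refine mem_filter.2 ⟨mem_univ _, mem_filter.2 ⟨mem_univ _, ?_⟩⟩
    rw [trace_red]
    exact_mod_cast hg.map (Int.castRingHom (ZMod p))
  · refine hs (fun g => ∃ h, g = h * h) (fun p _ => univ.filter fun g : SL2 (ZMod p) =>
      g.1.trace ∈ univ.filter fun τ : ZMod p => IsSquare (τ + 2))
      (fun p _ hp => small_of_traces hp (card_traces_square hp)) (fun p _ _ g hg => ?_) n _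
      fun w hw => (mem_filter.1 hw).2
    refine mem_filter.2 ⟨mem_univ _, mem_filter.2 ⟨mem_univ _, ?_⟩⟩
    obtain ⟨h, rfl⟩ := hg
    rw [trace_red]
    have e := congrArg (fun z : ℤ => (z : ZMod p)) (trace_mul_self_add_two h)
    push_cast at e
    exact ⟨((h.1.trace : ℤ) : ZMod p), e⟩
  · refine hs (fun g => g.1.trace = t) (fun p _ => univ.filter fun g : SL2 (ZMod p) =>
      g.1.trace ∈ ({(t : ZMod p)} : Finset (ZMod p)))
      (fun p _ hp => small_of_traces hp (by rw [card_singleton]; omega)) (fun p _ _ g hg => ?_) n _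
      fun w hw => (mem_filter.1 hw).2
    refine mem_filter.2 ⟨mem_univ _, mem_singleton.2 ?_⟩
    rw [trace_red, hg]

end FA.GroupSieve

end
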