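import Fermat.Agent.StrongApproximation.Lift
import Fermat.Agent.StrongApproximation.Subgroups
import Fermat.Agent.Helfgott.Main

/-!
# `SL₂ (𝔽_p) × SL₂ (𝔽_q)`

A subgroup with both projections onto is everything, and a symmetric set whose cube projects onto
both factors has a bounded power which is everything.
-/

set_option autoImplicit false

noncomputable section

namespace FA.GroupSieve

open FA.StrongApprox Finset
open scoped Pointwise

variable {p q : ℕ} [hp : Fact p.Prime] [hq : Fact q.Prime]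

/-- A prime above `q ≥ 5` is coprime to `|SL₂ (𝔽_q)|`. -/
theorem coprime_card (hq5 : 5 ≤ q) (hpq : q < p) :
    p.Coprime (Fintype.card (SL2 (ZMod q))) := by
  refine hp.out.coprime_iff_not_dvd.2 ?_
  rw [← Nat.card_eq_fintype_card]
  exact not_dvd_card (by omega) fun r hr hrq => by
    rw [(Nat.prime_dvd_prime_iff_eq hr hq.out).1 hrq]
    exact hpq

/-- A subgroup of `SL₂ (𝔽_p) × SL₂ (𝔽_q)` with both projections onto is everything. -/
theorem eq_top_of_proj (hq5 : 5 ≤ q) (hpq : q < p)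
    {H : Subgroup (SL2 (ZMod p) × SL2 (ZMod q))}
    (h1 : H.map (MonoidHom.fst _ _) = ⊤) (h2 : H.map (MonoidHom.snd _ _) = ⊤) : H = ⊤ := by
  set m := Fintype.card (SL2 (ZMod q))
  have hm : IsUnit (m : ZMod p) :=
    (ZMod.isUnit_iff_coprime _ _).2 (coprime_card hq5 hpq).symm
  have hgen : ∀ E : ZMod p → SL2 (ZMod p), (∀ (n : ℕ) t, E ((n : ZMod p) * t) = E t ^ n) →
      ∀ t, E t ∈ H.comap (MonoidHom.inl _ _) := by
    intro E hE t
    obtain ⟨z, hz, hz1⟩ : E ((m : ZMod p)⁻¹ * t) ∈ H.map (MonoidHom.fst _ _) :=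
      h1 ▸ Subgroup.mem_top _
    have e : z ^ m = (E t, 1) := Prod.ext (by
      rw [Prod.pow_fst, show z.1 = E ((m : ZMod p)⁻¹ * t) from hz1, ← hE, ← mul_assoc,
        ZMod.mul_inv_of_unit _ hm, one_mul]) (by rw [Prod.pow_snd]; exact pow_card_eq_one)
    rw [Subgroup.mem_comap, MonoidHom.inl_apply, ← e]
    exact H.pow_mem hz m
  have hl : H.comap (MonoidHom.inl _ _) = ⊤ :=
    eq_top_of_U_L local_field (hgen U U_nsmul) (hgen L L_nsmul)
  refine eq_top_iff.2 fun z _ => ?_
  obtain ⟨w, hw, hw2⟩ : z.2 ∈ H.map (MonoidHom.snd _ _) := h2 ▸ Subgroup.mem_top _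
  have : z = (z.1 * w.1⁻¹, 1) * w := Prod.ext (by simp) (by simp [← hw2])
  rw [this]
  exact H.mul_mem (Subgroup.mem_comap.1 (hl ▸ Subgroup.mem_top (z.1 * w.1⁻¹))) hw

/-- A normal subgroup with a non-central element is everything. -/
theorem normal_eq_top (hp7 : 7 ≤ p) {K : Subgroup (SL2 (ZMod p))} [hK : K.Normal]
    {a : SL2 (ZMod p)} (ha : a ∈ K) (hnc : ∃ g, g * a ≠ a * g) : K = ⊤ := by
  have hne : ∀ n : ℕ, 0 < n → n < p → (n : ZMod p) ≠ 0 := fun n h0 hn e =>
    absurd (Nat.le_of_dvd h0 ((ZMod.natCast_eq_zero_iff _ _).1 e)) (by omega)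
  have h2 : (2 : ZMod p) ≠ 0 := by exact_mod_cast hne 2 (by omega) (by omega)
  let W : SL2 (ZMod p) := ⟨!![0, -1; 1, 0], by simp [Matrix.det_fin_two]⟩
  obtain ⟨k, hk, hc⟩ : ∃ k ∈ K, k.1 1 0 ≠ 0 := by
    by_contra! hall
    obtain ⟨g, hg⟩ := hnc
    have e0 := hall a ha
    have e1 := hall _ (hK.conj_mem a ha W)
    have e2 := hall _ (hK.conj_mem a ha (L 1))
    simp [W, L, Matrix.mul_apply, Matrix.vecMul, dotProduct, Fin.sum_univ_two,
      Matrix.SpecialLinearGroup.coe_inv, Matrix.adjugate_fin_two, e0] at e1 e2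
    refine hg (Subtype.ext ?_)
    ext i j
    fin_cases i <;> fin_cases j <;> simp [Matrix.mul_apply, Fin.sum_univ_two, e0, e1]
    · ring
    · linear_combination -(g.1 0 1) * e2 - g.1 0 1 * e1
    · linear_combination g.1 1 0 * e2 + g.1 1 0 * e1
    · ring
  set k' := U (-k.1 0 0 / k.1 1 0) * k * (U (-k.1 0 0 / k.1 1 0))⁻¹ with hk'
  have hk'K : k' ∈ K := hK.conj_mem k hk _
  have h00 : k'.1 0 0 = 0 := by
    simp [hk', U, Matrix.mul_apply, Matrix.vecMul, dotProduct, Fin.sum_univ_two,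
      Matrix.SpecialLinearGroup.coe_inv, Matrix.adjugate_fin_two]
    field_simp
    ring
  let D : SL2 (ZMod p) := ⟨!![2, 0; 0, 2⁻¹], by simp [Matrix.det_fin_two, h2]⟩
  have hd := k'.2
  rw [Matrix.det_fin_two, h00, zero_mul, zero_sub] at hd
  set y := k' * (D * k'⁻¹ * D⁻¹) with hy
  have hyK : y ∈ K := K.mul_mem hk'K (hK.conj_mem _ (K.inv_mem hk'K) D)
  have e01 : y.1 0 1 = 0 := by
    simp [hy, D, Matrix.mul_apply, Fin.sum_univ_two,
      Matrix.SpecialLinearGroup.coe_inv, Matrix.adjugate_fin_two, h00]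
  have e00 : y.1 0 0 * 4 = 1 := by
    simp [hy, D, Matrix.mul_apply, Fin.sum_univ_two,
      Matrix.SpecialLinearGroup.coe_inv, Matrix.adjugate_fin_two, h00]
    field_simp
    linear_combination 4 * hd
  have hyd := y.2
  rw [Matrix.det_fin_two, e01, zero_mul, sub_zero] at hyd
  have e11 : y.1 1 1 = 4 := by linear_combination 4 * hyd - y.1 1 1 * e00
  have hL : y * L 1 * y⁻¹ * (L 1)⁻¹ = L 15 := by
    refine Subtype.ext ?_
    ext i j
    fin_cases i <;> fin_cases j <;>
      simp [L, Matrix.mul_apply, Fin.sum_univ_two,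
        Matrix.SpecialLinearGroup.coe_inv, Matrix.adjugate_fin_two, e01, e11]
    · linear_combination e00
    · linear_combination -e00
    · linear_combination e00
  have h15 : (15 : ZMod p) ≠ 0 := by
    have h3 : (3 : ZMod p) ≠ 0 := by exact_mod_cast hne 3 (by omega) (by omega)
    have h5 : (5 : ZMod p) ≠ 0 := by exact_mod_cast hne 5 (by omega) (by omega)
    rw [show (15 : ZMod p) = 3 * 5 by norm_num]
    exact mul_ne_zero h3 h5
  have hLK : L (15 : ZMod p) ∈ K := by
    rw [← hL, show y * L 1 * y⁻¹ * (L 1)⁻¹ = y * (L 1 * y⁻¹ * (L 1)⁻¹) by group]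
    exact K.mul_mem hyK (hK.conj_mem _ (K.inv_mem hyK) _)
  have hUK : U (-15 : ZMod p) ∈ K := by
    have : U (-15 : ZMod p) = W * L 15 * W⁻¹ := by
      ext i j
      fin_cases i <;> fin_cases j <;>
        simp [U, L, W, Matrix.mul_apply, Fin.sum_univ_two, Matrix.SpecialLinearGroup.coe_inv,
          Matrix.adjugate_fin_two]
    rw [this]
    exact hK.conj_mem _ hLK W
  exact eq_top_of_transvections (neg_ne_zero.2 h15) h15 hUK hLK

/-- A non-central element of one factor spreads to the whole factor. -/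
theorem exists_exponent_spread :
    ∃ k : ℕ, ∀ {p : ℕ} [Fact p.Prime] {P : Type} [Group P] [DecidableEq P]
      (ι : SL2 (ZMod p) →* P) (π : P →* SL2 (ZMod p)),
      7 ≤ p → (∀ x, π (ι x) = x) → (∀ d x, d * ι x * d⁻¹ = ι (π d * x * (π d)⁻¹)) →
      ∀ (D : Finset P), 1 ∈ D → D⁻¹ = D → (D.image π) ^ 3 = univ →
      ∀ a, ι a ∈ D ^ 18 → (∃ g, g * a ≠ a * g) → ∀ x, ι x ∈ D ^ k := by
  obtain ⟨M, hM, hgr⟩ := Helfgott.growth
  refine ⟨24 * 3 ^ (3 * M), ?_⟩
  intro p _ P _ _ ι π hp7 hπι hconj D hD1 hDs hfull a ha hnc x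
  classical
  set S : Finset (SL2 (ZMod p)) := insert 1
    (univ.image (fun g => g * a * g⁻¹) ∪ univ.image fun g => g * a⁻¹ * g⁻¹) with hS
  have hS1 : (1 : SL2 (ZMod p)) ∈ S := mem_insert_self _ _
  have hSs : S⁻¹ = S := by
    ext z
    simp only [hS, Finset.mem_inv', Finset.mem_insert, Finset.mem_union, Finset.mem_image,
      Finset.mem_univ, true_and, inv_eq_one]
    refine or_congr Iff.rfl ?_
    rw [or_comm]
    refine or_congr ?_ ?_ <;> refine exists_congr fun g => ?_ <;>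
      · rw [← inv_inj]; simp [mul_assoc]
  have hgen : Subgroup.closure (S : Set (SL2 (ZMod p))) = ⊤ := by
    set K := Subgroup.normalClosure ({a} : Set (SL2 (ZMod p)))
    have hK : K = ⊤ := normal_eq_top hp7 (Subgroup.subset_normalClosure rfl) hnc
    rw [eq_top_iff, ← hK]
    refine (Subgroup.closure_le _).2 fun z hz => Subgroup.subset_closure ?_
    obtain ⟨b, hb, hbz⟩ := Group.mem_conjugatesOfSet_iff.1 hz
    rw [Set.mem_singleton_iff] at hb
    subst hb
    obtain ⟨g, rfl⟩ := isConj_iff.1 hbz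
    simp [hS]
  have hlarge : p ≤ #S := by
    obtain ⟨E, hE, hne⟩ : ∃ E : ZMod p → SL2 (ZMod p),
        (∀ (n : ℕ) t, E ((n : ZMod p) * t) = E t ^ n) ∧ ∀ s, s ≠ 0 → E s * a ≠ a * E s := by
      by_contra! hall
      obtain ⟨s, hs, hUs⟩ := hall U U_nsmul
      obtain ⟨r, hr, hLr⟩ := hall L L_nsmul
      obtain ⟨g, hg⟩ := hnc
      have htop := eq_top_of_transvections (H := Subgroup.centralizer {a}) hs hr
        (Subgroup.mem_centralizer_singleton_iff.2 hUs)
        (Subgroup.mem_centralizer_singleton_iff.2 hLr)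
      exact hg (Subgroup.mem_centralizer_singleton_iff.1 (htop ▸ Subgroup.mem_top g))
    calc p = #(univ : Finset (ZMod p)) := by rw [card_univ, ZMod.card]
      _ ≤ #S := by
        refine card_le_card_of_injOn (fun t => E t * a * (E t)⁻¹) (fun t _ => by simp [hS])
          fun t _ t' _ he => ?_
        by_contra hne'
        have hEadd : ∀ m n : ℕ, E ((m + n : ℕ) : ZMod p) = E m * E n := fun m n => by
          have := fun r : ℕ => hE r 1
          simp only [mul_one] at this
          rw [this, this, this, pow_add]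
        have he' : E t' = E t * E (t' - t) := by
          have := hEadd t.val (t' - t).val
          simpa using this
        refine hne (t' - t) (sub_ne_zero.2 fun h => hne' h.symm) ?_
        simp only [he'] at he
        have h2 : a = E (t' - t) * a * (E (t' - t))⁻¹ := by
          calc a = (E t)⁻¹ * (E t * a * (E t)⁻¹) * E t := by group
            _ = (E t)⁻¹ * (E t * E (t' - t) * a * (E t * E (t' - t))⁻¹) * E t := by rw [he]
            _ = _ := by group
        conv_rhs => rw [h2]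
        group
  have hkey : ∀ j, S ^ 3 ^ j = univ ∨ #S ^ (M + 1) ^ j ≤ #(S ^ 3 ^ j) ^ M ^ j := by
    intro j
    induction j with
    | zero => simp
    | succ j ih =>
      have hpow : (S ^ 3 ^ j) ^ 3 = S ^ 3 ^ (j + 1) := by rw [← pow_mul, ← pow_succ]
      rcases ih with ih | ih
      · exact .inl (eq_univ_of_forall fun x => Finset.pow_subset_pow_right hS1
          (Nat.pow_le_pow_right (by norm_num) j.le_succ) (ih ▸ mem_univ x))
      rcases hgr p (S ^ 3 ^ j) (Finset.pow_subset_pow_right hS1 (Nat.zero_le _) (by simp))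
        (by rw [← inv_pow, hSs])
        (top_le_iff.1 (hgen ▸ Subgroup.closure_mono fun z hz =>
          Finset.pow_subset_pow_right hS1 (Nat.one_le_pow j 3 (by norm_num)) (by simpa using hz)))
        with hu | hle
      · exact .inl (hpow ▸ hu)
      refine .inr ?_
      rw [hpow] at hle
      calc #S ^ (M + 1) ^ (j + 1) = (#S ^ (M + 1) ^ j) ^ (M + 1) := by rw [← pow_mul, ← pow_succ]
        _ ≤ (#(S ^ 3 ^ j) ^ M ^ j) ^ (M + 1) := Nat.pow_le_pow_left ih _
        _ = (#(S ^ 3 ^ j) ^ (M + 1)) ^ M ^ j := by rw [← pow_mul, ← pow_mul, mul_comm]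
        _ ≤ (#(S ^ 3 ^ (j + 1)) ^ M) ^ M ^ j := Nat.pow_le_pow_left hle _
        _ = _ := by rw [← pow_mul, ← pow_succ']
  have hS' : S ^ 3 ^ (3 * M) = univ := by
    refine (hkey _).resolve_right fun h => ?_
    have hexp : 4 * M ^ (3 * M) ≤ (M + 1) ^ (3 * M) := by
      rw [mul_comm 3 M, pow_mul, pow_mul]
      obtain ⟨n, rfl⟩ : ∃ n, M = n + 1 := ⟨M - 1, by omega⟩
      have h2 : 2 * (n + 1) ^ (n + 1) ≤ (n + 1 + 1) ^ (n + 1) := by
        refine le_trans (le_of_eq ?_) (Helfgott.pow_succ_add_le (n + 1) n)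
        rw [pow_succ (n + 1) n]
        ring
      calc 4 * ((n + 1) ^ (n + 1)) ^ 3 ≤ (2 * (n + 1) ^ (n + 1)) ^ 3 := by
            rw [mul_pow]; exact Nat.mul_le_mul_right _ (by norm_num)
        _ ≤ _ := Nat.pow_le_pow_left h2 3
    have hS0 : 1 ≤ #S := card_pos.2 ⟨1, hS1⟩
    have h2 : (p ^ 4) ^ M ^ (3 * M) ≤ #(S ^ 3 ^ (3 * M)) ^ M ^ (3 * M) := by
      refine le_trans ?_ h
      rw [← pow_mul]
      exact (Nat.pow_le_pow_left hlarge _).trans (Nat.pow_le_pow_right hS0 hexp)
    have h3 := (Nat.pow_le_pow_iff_left (pow_ne_zero _ hM.ne')).1 h2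
    have h4 := (h3.trans (card_le_univ _)).trans Helfgott.card_SL2_le
    exact absurd h4 (not_le.2 (Nat.pow_lt_pow_right (by omega) (by norm_num)))
  -- the conjugates lie in `D ^ 24`
  have hsub : S.image ι ⊆ D ^ 24 := by
    intro z hz
    obtain ⟨s, hs, rfl⟩ := mem_image.1 hz
    have hmem : ∀ b, ι b ∈ D ^ 18 → ∀ g, ι (g * b * g⁻¹) ∈ D ^ 24 := fun b hb g => by
      obtain ⟨d, hd, rfl⟩ : ∃ d ∈ D ^ 3, π d = g := by
        have : g ∈ (D ^ 3).image π := by
          rw [Finset.image_pow π]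
          exact hfull ▸ mem_univ g
        obtain ⟨d, hd, hdg⟩ := mem_image.1 this
        exact ⟨d, hd, hdg⟩
      rw [← hconj, show (24 : ℕ) = 3 + 18 + 3 from rfl, pow_add, pow_add]
      refine mul_mem_mul (mul_mem_mul hd hb) ?_
      have := Finset.inv_mem_inv hd
      rwa [← inv_pow, hDs] at this
    simp only [hS, Finset.mem_insert, Finset.mem_union, Finset.mem_image, Finset.mem_univ,
      true_and] at hs
    rcases hs with rfl | ⟨g, rfl⟩ | ⟨g, rfl⟩
    · rw [map_one]
      exact Finset.pow_subset_pow_right hD1 (Nat.zero_le _) (by simp)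
    · exact hmem a ha g
    · refine hmem a⁻¹ ?_ g
      rw [map_inv, ← hDs, inv_pow]
      exact Finset.inv_mem_inv ha
  rw [pow_mul]
  refine Finset.pow_subset_pow_left hsub ?_
  rw [← Finset.image_pow ι, hS']
  exact mem_image_of_mem _ (mem_univ x)

/-- **Both projections full give everything in bounded length.** -/
theorem exists_exponent_full :
    ∃ k : ℕ, ∀ {p q : ℕ} [Fact p.Prime] [Fact q.Prime], 7 ≤ q → q < p →
      ∀ D : Finset (SL2 (ZMod p) × SL2 (ZMod q)), 1 ∈ D → D⁻¹ = D →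
        (D.image (MonoidHom.fst _ _)) ^ 3 = univ → (D.image (MonoidHom.snd _ _)) ^ 3 = univ →
          D ^ k = univ := by
  obtain ⟨k, hk⟩ := exists_exponent_spread
  refine ⟨k + 3, ?_⟩
  intro p q _ _ hq7 hpq D hD1 hDs h1 h2
  classical
  have hlift : ∀ x, ∃ z ∈ D ^ 3, z.1 = x := fun x => by
    have : x ∈ (D ^ 3).image (MonoidHom.fst _ _) := by
      rw [Finset.image_pow (MonoidHom.fst (SL2 (ZMod p)) (SL2 (ZMod q))), h1]; exact mem_univ x
    simpa using this
  have hlift' : ∀ y, ∃ z ∈ D ^ 3, z.2 = y := fun y => by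
    have : y ∈ (D ^ 3).image (MonoidHom.snd _ _) := by
      rw [Finset.image_pow (MonoidHom.snd (SL2 (ZMod p)) (SL2 (ZMod q))), h2]; exact mem_univ y
    simpa using this
  have hinv : ∀ z m, z ∈ D ^ m → z⁻¹ ∈ D ^ m := fun z m hz => by
    rw [← hDs, inv_pow]; exact Finset.inv_mem_inv hz
  have hcases : (∃ a, (a, 1) ∈ D ^ 18 ∧ ∃ g, g * a ≠ a * g) ∨
      ∃ b, (1, b) ∈ D ^ 18 ∧ ∃ g, g * b ≠ b * g := by
    choose z hz hz1 using fun s : ZMod p => hlift (U s)
    by_cases hcen : ∀ s t, ∀ g, g * ((z s).2 * (z t).2 * (z (s + t)).2⁻¹) =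
        (z s).2 * (z t).2 * (z (s + t)).2⁻¹ * g
    swap
    · push Not at hcen
      obtain ⟨s, t, g, hg⟩ := hcen
      refine .inr ⟨_, ?_, g, hg⟩
      refine Finset.pow_subset_pow_right hD1 (show 9 ≤ 18 by norm_num) ?_
      have e : ((1 : SL2 (ZMod p)), (z s).2 * (z t).2 * (z (s + t)).2⁻¹) =
          z s * z t * (z (s + t))⁻¹ := Prod.ext (by simp [hz1, U_add]) rfl
      rw [e, show (9 : ℕ) = 3 + 3 + 3 from rfl, pow_add, pow_add]
      exact mul_mem_mul (mul_mem_mul (hz s) (hz t)) (hinv _ 3 (hz _))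
    left
    set Z := Subgroup.center (SL2 (ZMod q))
    have hZ : ∀ s t, (z s).2 * (z t).2 * (z (s + t)).2⁻¹ ∈ Z := fun s t =>
      Subgroup.mem_center_iff.2 (hcen s t)
    set f : ZMod p → SL2 (ZMod q) ⧸ Z := fun s => QuotientGroup.mk (z s).2
    have hf : ∀ s t, f (s + t) = f s * f t := fun s t => by
      have := (QuotientGroup.eq_one_iff _).2 (hZ s t)
      rw [QuotientGroup.mk_mul, QuotientGroup.mk_mul, QuotientGroup.mk_inv, mul_inv_eq_one] at this
      exact this.symm
    have hf0 : f 0 = 1 := mul_left_cancel (a := f 0) (by rw [← hf, add_zero, mul_one])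
    have hfn : ∀ n : ℕ, f n = f 1 ^ n := fun n => by
      induction n with
      | zero => rw [Nat.cast_zero, pow_zero, hf0]
      | succ n ih => rw [Nat.cast_succ, hf, ih, pow_succ]
    have hp1 : f 1 ^ p = 1 := by rw [← hfn, ZMod.natCast_self, hf0]
    have hord : orderOf (f 1) = 1 := Nat.eq_one_of_dvd_coprimes (coprime_card (by omega) hpq)
      (orderOf_dvd_of_pow_eq_one hp1) ((orderOf_map_dvd (QuotientGroup.mk' Z) (z 1).2).trans
        orderOf_dvd_card)
    have hb := Subgroup.mem_center_iff.1 ((QuotientGroup.eq_one_iff _).1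
      (orderOf_eq_one_iff.1 hord))
    set b := (z 1).2
    have hbb : b * b = 1 := by
      have hU := congrArg Subtype.val (hb (U 1))
      have hL := congrArg Subtype.val (hb (L 1))
      have u00 := congrFun (congrFun hU 0) 0
      have u01 := congrFun (congrFun hU 0) 1
      have l00 := congrFun (congrFun hL 0) 0
      simp [U, L, Matrix.mul_apply, Fin.sum_univ_two] at u00 u01 l00
      have hd := b.2
      rw [Matrix.det_fin_two] at hd
      refine Subtype.ext ?_
      ext i j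
      fin_cases i <;> fin_cases j <;> simp [Matrix.mul_apply, Fin.sum_univ_two]
      all_goals grind
    refine ⟨U 1 * U 1, ?_, L 1, fun he => ?_⟩
    · refine Finset.pow_subset_pow_right hD1 (show 6 ≤ 18 by norm_num) ?_
      rw [show (6 : ℕ) = 3 + 3 from rfl, pow_add,
        show ((U 1 * U 1 : SL2 (ZMod p)), (1 : SL2 (ZMod q))) = z 1 * z 1 from
          Prod.ext (by simp [hz1]) (by simpa [b] using hbb.symm)]
      exact mul_mem_mul (hz 1) (hz 1)
    · have := congrFun (congrFun (congrArg Subtype.val he) 1) 1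
      simp [U, L, Matrix.mul_apply, Fin.sum_univ_two] at this
      have h2 : (2 : ZMod p) ≠ 0 := by
        intro e
        have := Nat.le_of_dvd two_pos ((ZMod.natCast_eq_zero_iff 2 p).1 (by exact_mod_cast e))
        omega
      exact h2 (by linear_combination this)
  refine eq_univ_of_forall fun w => ?_
  rw [pow_add]
  rcases hcases with ⟨a, ha, hnc⟩ | ⟨b, hb, hnc⟩
  · have key := hk (MonoidHom.inl (SL2 (ZMod p)) (SL2 (ZMod q))) (MonoidHom.fst _ _) (by omega)
      (fun _ => rfl) (fun d x => Prod.ext (by simp) (by simp)) D hD1 hDs h1 a ha hnc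
    obtain ⟨d, hd, hdw⟩ := hlift' w.2
    have e : w = (MonoidHom.inl _ _) (w.1 * d.1⁻¹) * d := Prod.ext (by simp) (by simp [hdw])
    rw [e]
    exact mul_mem_mul (key _) hd
  · have key := hk (MonoidHom.inr (SL2 (ZMod p)) (SL2 (ZMod q))) (MonoidHom.snd _ _) hq7
      (fun _ => rfl) (fun d x => Prod.ext (by simp) (by simp)) D hD1 hDs h2 b hb hnc
    obtain ⟨d, hd, hdw⟩ := hlift w.1
    have e : w = (MonoidHom.inr _ _) (w.2 * d.2⁻¹) * d := Prod.ext (by simp [hdw]) (by simp)
    rw [e]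
    exact mul_mem_mul (key _) hd

end FA.GroupSieve

end
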