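import Fermat.Agent.GroupSieve.Product
import Fermat.Agent.BourgainGamburd.Main

/-!
# The gap modulo two primes

For primes `q < p ≤ q ^ 2` the reductions of a free pair have a uniform gap in
`SL₂ (𝔽_p) × SL₂ (𝔽_q)`.
-/

set_option autoImplicit false

noncomputable section

namespace FA.GroupSieve

open FA.StrongApprox FA.BourgainGamburd Finset
open scoped Pointwise Classical

variable {p q : ℕ} [hp : Fact p.Prime] [hq : Fact q.Prime]

/-- Reduction modulo two primes. -/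
abbrev red₂ (p q : ℕ) : SL2 ℤ →* SL2 (ZMod p) × SL2 (ZMod q) := (red p).prod (red q)

/-- The product is quasirandom. -/
theorem quasirandom_prod (hqp : q ≤ p) :
    Helfgott.Quasirandom (SL2 (ZMod p) × SL2 (ZMod q)) ((q - 1) / 2) := by
  intro n ρ ⟨g, v, hgv⟩
  by_cases h1 : ∃ x w, ρ (x, 1) w ≠ w
  · obtain ⟨x, w, hw⟩ := h1
    exact (by omega : (q - 1) / 2 ≤ (p - 1) / 2).trans
      (Helfgott.quasirandom_SL2 n (ρ.comp (MonoidHom.inl _ _)) ⟨x, w, hw⟩)
  push Not at h1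
  refine Helfgott.quasirandom_SL2 n (ρ.comp (MonoidHom.inr _ _)) ⟨g.2, v, fun h => hgv ?_⟩
  rw [show g = (g.1, 1) * (1, g.2) from Prod.ext (by simp) (by simp), map_mul,
    Module.End.mul_apply, show ρ (1, g.2) v = v from h, h1]

/-- The steps modulo two primes. -/
def stepMod₂ (φ : FreeGroup (Fin 2) →* SL2 ℤ) (p q : ℕ) : Letter → SL2 (ZMod p) × SL2 (ZMod q) :=
  ((red₂ p q).comp φ) ∘ letter

omit hp hq in
theorem stepMod₂_inv (φ : FreeGroup (Fin 2) →* SL2 ℤ) (c : Letter) :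
    stepMod₂ φ p q (invLetter c) = (stepMod₂ φ p q c)⁻¹ := by
  simp [stepMod₂, letter_inv]

omit hp hq in
theorem fst_stepMod₂ (φ : FreeGroup (Fin 2) →* SL2 ℤ) :
    (MonoidHom.fst _ _) ∘ stepMod₂ φ p q = stepMod φ p := rfl

omit hp hq in
theorem snd_stepMod₂ (φ : FreeGroup (Fin 2) →* SL2 ℤ) :
    (MonoidHom.snd _ _) ∘ stepMod₂ φ p q = stepMod φ q := rfl

/-- Mass of cosets of subgroups which do not project onto a factor. -/
theorem coset_map_le {G G' : Type*} [Group G] [Group G'] (π : G →* G') (s : Letter → G) (L : ℕ)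
    (H : Subgroup G) (g : G) :
    prob s L (fun x => g⁻¹ * x ∈ H) ≤ prob (π ∘ s) L (fun x => (π g)⁻¹ * x ∈ H.map π) := by
  rw [prob_comp]
  refine prob_mono (B := fun _ _ => True) s trivial (fun _ _ _ _ => trivial) L _ _ fun x _ hx => ?_
  exact ⟨_, hx, by rw [map_mul, map_inv]⟩

theorem image_pow_growth {G G' : Type*} [Group G] [Fintype G] [Group G'] [DecidableEq G]
    [DecidableEq G'] (π : G →* G') {D : Finset G} (h1 : 1 ∈ D) (hs : D⁻¹ = D) {C : ℝ}
    (hC : (#(D ^ 3) : ℝ) ≤ C * #D) : (#((D.image π) ^ 3) : ℝ) ≤ C ^ 3 * #(D.image π) := by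
  classical
  set K := (D ^ 2).filter fun x => π x = 1
  have hD : #D ≤ #(D.image π) * #K := by
    rw [mul_comm]
    refine card_le_mul_card_image (f := π) D _ fun y _ => ?_
    rcases (D.filter fun x => π x = y).eq_empty_or_nonempty with h | ⟨a, ha⟩
    · simp [h]
    refine card_le_card_of_injOn (a⁻¹ * ·) (fun b hb => ?_) fun b _ b' _ h => mul_left_cancel h
    simp only [mem_coe, mem_filter, K] at ha hb ⊢
    refine ⟨?_, by rw [map_mul, map_inv, ha.2, hb.2, inv_mul_cancel]⟩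
    rw [pow_two]
    exact mul_mem_mul (hs ▸ inv_mem_inv ha.1) hb.1
  have hbig : #((D ^ 3).image π) * #K ≤ #(D ^ 5) := by
    have : ∀ y ∈ (D ^ 3).image π, ∃ x ∈ D ^ 3, π x = y := fun y hy => by simpa using hy
    choose! f hf hfy using this
    rw [← card_product]
    refine card_le_card_of_injOn (fun z => f z.1 * z.2) (fun z hz => ?_) fun z hz z' hz' he => ?_
    · simp only [coe_product, Set.mem_prod, mem_coe, mem_filter, K] at hz
      rw [mem_coe, show (5 : ℕ) = 3 + 2 from rfl, pow_add]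
      exact mul_mem_mul (hf _ hz.1) hz.2.1
    · simp only [coe_product, Set.mem_prod, mem_coe, mem_filter, K] at hz hz'
      have h' := congrArg π he
      simp only [map_mul, hz.2.2, hz'.2.2, mul_one, hfy _ hz.1, hfy _ hz'.1] at h'
      refine Prod.ext h' ?_
      simp only [h'] at he
      exact mul_left_cancel he
  rw [Finset.image_pow π] at hbig
  have hD0 : (0 : ℝ) < #D := Nat.cast_pos.2 (card_pos.2 ⟨1, h1⟩)
  have hKpos : (0 : ℝ) < #K := Nat.cast_pos.2 (card_pos.2 ⟨1, mem_filter.2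
    ⟨Finset.pow_subset_pow_right h1 (Nat.zero_le _) (by simp), map_one π⟩⟩)
  have h5 : (#(D ^ 5) : ℝ) ≤ C ^ 3 * #D := by
    refine le_of_mul_le_mul_right ?_ (pow_pos hD0 2)
    calc (#(D ^ 5) : ℝ) * (#D : ℝ) ^ 2 ≤ (#(D ^ 3) : ℝ) ^ 3 := by
          exact_mod_cast Helfgott.card_pow_mul_le hs ⟨1, h1⟩ 2
      _ ≤ (C * #D) ^ 3 := pow_le_pow_left₀ (Nat.cast_nonneg _) hC 3
      _ = _ := by ring
  have hC0 : 0 ≤ C := nonneg_of_mul_nonneg_left ((Nat.cast_nonneg _).trans hC) hD0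
  refine le_of_mul_le_mul_right ?_ hKpos
  calc (#((D.image π) ^ 3) : ℝ) * #K ≤ #(D ^ 5) := by exact_mod_cast hbig
    _ ≤ C ^ 3 * #D := h5
    _ ≤ C ^ 3 * ((#(D.image π) : ℝ) * #K) :=
        mul_le_mul_of_nonneg_left (by exact_mod_cast hD) (pow_nonneg hC0 3)
    _ = _ := by ring

theorem sum_biUnion_le_add {ι α : Type*} [DecidableEq α] (s : Finset ι) (f : ι → Finset α)
    {g : α → ℝ} (hg : ∀ x, 0 ≤ g x) : ∑ x ∈ s.biUnion f, g x ≤ ∑ i ∈ s, ∑ x ∈ f i, g x := by
  classical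
  induction s using Finset.induction with
  | empty => simp
  | insert i s hi ih =>
    rw [biUnion_insert, sum_insert hi]
    have := sum_union_inter (s₁ := f i) (s₂ := s.biUnion f) (f := g)
    have := sum_nonneg (s := f i ∩ s.biUnion f) fun x _ => hg x
    linarith

/-- Coset masses at most `δ` with `δ ^ a ≤ 1 / q` cannot be bounded below by a small `1 / C`. -/
theorem false_of_light {δ C : ℝ} {a i q : ℕ} (hq : 0 < q) (hC : 0 ≤ C)
    (hδ : δ ^ a ≤ 1 / q) (hCq : C ^ (i * a) < q) (h : 1 ≤ C ^ i * δ) : False := by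
  have h1 : (1 : ℝ) ≤ C ^ (i * a) * δ ^ a := by
    rw [pow_mul, ← mul_pow]
    exact one_le_pow₀ h
  have h2 := mul_le_mul_of_nonneg_left hδ (pow_nonneg hC (i * a))
  rw [mul_one_div] at h2
  have := (one_le_div (by exact_mod_cast hq)).1 (h1.trans h2)
  linarith

/-- **Almost uniformity in logarithmic time modulo two primes.** -/
theorem sqNorm_walk_prod_le {φ : FreeGroup (Fin 2) →* SL2 ℤ} (hφ : Function.Injective φ) :
    ∃ C N : ℕ, ∀ (p q : ℕ) [Fact p.Prime] [Fact q.Prime], N < q → q < p → p ≤ q ^ 2 →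
      ∃ L ≤ C * Nat.log 2 q, (Fintype.card (SL2 (ZMod p) × SL2 (ZMod q)) *
        sqNorm (walk (stepMod₂ φ p q) L)) ^ 4 ≤ (q : ℝ) := by
  obtain ⟨a, N₁, ha, hnc⟩ := nonconcentration hφ
  obtain ⟨B, b, hB, hstruct⟩ := flattening_structure.{0}
  obtain ⟨M₀, hM₀, hgrowth⟩ := Helfgott.growth
  obtain ⟨k, hk⟩ := exists_exponent_full
  set n := a * (3 * M₀ + 1) + 4 * (k + 5) with hn
  set e := 2 * (b + 1) * n with he
  obtain ⟨N₂, hN₂⟩ : ∃ N₂ : ℕ, B ^ (2 * n) < N₂ := exists_nat_gt _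
  refine ⟨8 * 2 ^ (9 * e), max (max N₁ N₂) 8, fun p q _ _ hq hqp hpq2 => ?_⟩
  have hq1 : N₁ < q := lt_of_le_of_lt ((le_max_left _ _).trans (le_max_left _ _)) hq
  have hqN₂ : (N₂ : ℝ) ≤ q := by
    exact_mod_cast (lt_of_le_of_lt ((le_max_right N₁ N₂).trans (le_max_left _ _)) hq).le
  have hq8 : 8 < q := lt_of_le_of_lt (le_max_right _ _) hq
  have hq0 : (0 : ℝ) < q := by exact_mod_cast (show 0 < q by omega)
  obtain ⟨l₁, hl₁, hmass₁⟩ := hnc p (by omega)
  obtain ⟨l₂, hl₂, hmass₂⟩ := hnc q hq1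
  set l := max l₁ l₂ + 1
  have hlogp : Nat.log 2 p ≤ 2 * Nat.log 2 q + 2 := by
    have h1 : p < (2 ^ (Nat.log 2 q + 1)) ^ 2 :=
      hpq2.trans_lt (Nat.pow_lt_pow_left (Nat.lt_pow_succ_log_self one_lt_two q) two_ne_zero)
    rw [← pow_mul] at h1
    have := Nat.log_lt_of_lt_pow (by omega) h1
    omega
  have hlog : 3 ≤ Nat.log 2 q := Nat.le_log_of_pow_le one_lt_two (by omega)
  have hl : l ≤ 8 * Nat.log 2 q := by omega
  have he0 : e ≠ 0 := by rw [he]; positivity
  obtain ⟨K, hK1, hKe⟩ : ∃ K : ℝ, 1 ≤ K ∧ K ^ e = q := by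
    refine ⟨(q : ℝ) ^ ((e : ℝ)⁻¹), Real.one_le_rpow (by exact_mod_cast (show 1 ≤ q by omega))
      (by positivity), ?_⟩
    rw [← Real.rpow_natCast, ← Real.rpow_mul hq0.le,
      inv_mul_cancel₀ (by exact_mod_cast he0), Real.rpow_one]
  set C := B * K ^ b with hC
  have hC4 : 4 ≤ C := hB.trans (le_mul_of_one_le_right (by linarith) (one_le_pow₀ hK1))
  have hC0 : 0 ≤ C := by linarith
  have hCpow : ∀ i, i ≤ n → C ^ i < q := fun i hi => by
    refine lt_of_le_of_lt (pow_le_pow_right₀ (by linarith) hi) ?_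
    rw [hC, mul_pow, ← pow_mul]
    have h1 : B ^ n < K ^ ((b + 1) * n) := by
      refine lt_of_pow_lt_pow_left₀ 2 (by positivity) ?_
      rw [← pow_mul, ← pow_mul, mul_comm n, mul_comm ((b + 1) * n), ← mul_assoc]
      rw [← he, hKe]
      exact lt_of_lt_of_le hN₂ hqN₂
    calc B ^ n * K ^ (b * n) < K ^ ((b + 1) * n) * K ^ (b * n) :=
          mul_lt_mul_of_pos_right h1 (by positivity)
      _ ≤ K ^ e := by
          rw [← pow_add]
          exact pow_le_pow_right₀ hK1 (by rw [he]; nlinarith)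
      _ = _ := hKe
  set s := stepMod₂ φ p q with hsdef
  set g : ℝ := (Fintype.card (SL2 (ZMod p) × SL2 (ZMod q)) : ℝ)
  have hg0 : 0 ≤ g := Nat.cast_nonneg _
  -- cosets of proper subgroups
  have hlight : ∀ L, l ≤ L → ∀ H : Subgroup (SL2 (ZMod p) × SL2 (ZMod q)), H ≠ ⊤ → ∀ x,
      prob s L (fun z => x⁻¹ * z ∈ H) ^ a ≤ 1 / (q : ℝ) := by
    intro L hL H hH x
    by_cases h1 : H.map (MonoidHom.fst _ _) = ⊤
    · have h2 : H.map (MonoidHom.snd _ _) ≠ ⊤ := fun h2 => hH (eq_top_of_proj (by omega) hqp h1 h2)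
      refine le_trans ?_ (hmass₂ L (by omega) _ h2 x.2)
      exact pow_le_pow_left₀ (prob_nonneg _ _ _)
        (coset_map_le (MonoidHom.snd (SL2 (ZMod p)) (SL2 (ZMod q))) s L H x) a
    · refine le_trans ?_ ((hmass₁ L (by omega) _ h1 x.1).trans ?_)
      · exact pow_le_pow_left₀ (prob_nonneg _ _ _)
          (coset_map_le (MonoidHom.fst (SL2 (ZMod p)) (SL2 (ZMod q))) s L H x) a
      · exact one_div_le_one_div_of_le hq0 (by exact_mod_cast hqp.le)
  -- one step of flattening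
  have hstep : ∀ L, l ≤ L → (g * sqNorm (walk s L)) ^ 4 ≤ q ∨
      K * sqNorm (walk s (L + L)) ≤ sqNorm (walk s L) := by
    intro L hL
    by_contra! hcon
    obtain ⟨hbig, hflat⟩ := hcon
    set ν := walk s L
    have heq : mconv ν ν = walk s (L + L) := funext fun z => (walk_add s L L z).symm
    obtain ⟨D, hD1, hDs, hDM, hD3, x, hx⟩ := hstruct ν (walk_nonneg s L) (sum_walk s L) K hK1
      (by rw [heq]; exact hflat.le)
    rw [← hC] at hDM hD3 hx
    -- the set `D` is not inside few cosets of a proper subgroup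
    have hcover : ∀ (H : Subgroup (SL2 (ZMod p) × SL2 (ZMod q))), H ≠ ⊤ →
        ∀ (T : Finset (SL2 (ZMod p) × SL2 (ZMod q))), (∀ y ∈ D, ∃ t ∈ T, t⁻¹ * (y * x) ∈ H) →
          ∀ i, i * a ≤ n → (#T : ℝ) * C ≤ C ^ i → False := by
      intro H hH T hT i hi hTi
      have hTne : T.Nonempty := let ⟨t, ht, _⟩ := hT 1 hD1; ⟨t, ht⟩
      obtain ⟨δ, hδ0, hδ, hδle⟩ : ∃ δ : ℝ, 0 ≤ δ ∧ δ ^ a ≤ 1 / q ∧
          ∀ t ∈ T, prob s L (fun z => t⁻¹ * z ∈ H) ≤ δ := by
        obtain ⟨t₀, -, ht₀⟩ := exists_max_image T (fun t => prob s L fun z => t⁻¹ * z ∈ H) hTne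
        exact ⟨_, prob_nonneg _ _ _, hlight L hL H hH t₀, ht₀⟩
      refine false_of_light (by omega) hC0 hδ (hCpow _ hi) ?_
      calc (1 : ℝ) ≤ C * ∑ y ∈ D, ν (y * x) := hx
        _ = C * ∑ z ∈ D.image (· * x), ν z := by
            rw [sum_image fun u _ v _ h => mul_right_cancel h]
        _ ≤ C * ∑ t ∈ T, ∑ z ∈ univ.filter (fun z => t⁻¹ * z ∈ H), ν z := by
            refine mul_le_mul_of_nonneg_left ?_ hC0
            refine le_trans (sum_le_sum_of_subset_of_nonneg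
              (t := T.biUnion fun t => univ.filter fun z => t⁻¹ * z ∈ H) (fun z hz => ?_)
              fun z _ _ => walk_nonneg s L z) ?_
            · obtain ⟨y, hy, rfl⟩ := mem_image.1 hz
              obtain ⟨t, ht, htH⟩ := hT y hy
              exact mem_biUnion.2 ⟨t, ht, mem_filter.2 ⟨mem_univ _, htH⟩⟩
            · exact sum_biUnion_le_add _ _ (walk_nonneg s L)
        _ ≤ C * (#T * δ) := by
            refine mul_le_mul_of_nonneg_left ((sum_le_card_nsmul _ _ δ fun t ht => ?_).trans_eq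
              (nsmul_eq_mul _ _)) hC0
            rw [← prob_eq_sum]
            exact hδle t ht
        _ ≤ C ^ i * δ := by
            rw [← mul_assoc, mul_comm C]
            exact mul_le_mul_of_nonneg_right hTi hδ0
    have hgen : Subgroup.closure (D : Set (SL2 (ZMod p) × SL2 (ZMod q))) = ⊤ := by
      by_contra hne
      set H := Subgroup.closure (D : Set (SL2 (ZMod p) × SL2 (ZMod q)))
      set H' := H.comap (MulAut.conj x).toMonoidHom
      have hH' : H' ≠ ⊤ := fun h => hne (eq_top_iff.2 fun y _ => by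
        obtain ⟨w, rfl⟩ := (MulAut.conj x).surjective y
        exact Subgroup.mem_comap.1 (h ▸ Subgroup.mem_top w : w ∈ H'))
      refine hcover H' hH' {x} (fun y hy => ⟨x, mem_singleton_self x, Subgroup.mem_comap.2 ?_⟩) 1
        (by rw [one_mul, hn]; nlinarith) (by simp)
      show x * (x⁻¹ * (y * x)) * x⁻¹ ∈ H
      rw [mul_inv_cancel_left, mul_inv_cancel_right]
      exact Subgroup.subset_closure (mem_coe.2 hy)
    -- both projections are everything
    have hproj : ∀ {r : ℕ} [Fact r.Prime] (π : SL2 (ZMod p) × SL2 (ZMod q) →* SL2 (ZMod r)),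
        Function.Surjective π → (D.image π) ^ 3 = univ := by
      intro r _ π hπ
      have hDgen : Subgroup.closure ((D.image π : Finset _) : Set (SL2 (ZMod r))) = ⊤ := by
        rw [coe_image, ← MonoidHom.map_closure, hgen, Subgroup.map_top_of_surjective π hπ]
      rcases hgrowth r (D.image π) (mem_image.2 ⟨1, hD1, map_one π⟩)
        (by rw [← image_inv π, hDs]) hDgen with h | h
      · exact h
      exfalso
      have hπD : (#(D.image π) : ℝ) ≤ C ^ (3 * M₀) := by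
        have hpos : (0 : ℝ) < #(D.image π) := Nat.cast_pos.2
          (card_pos.2 ⟨_, mem_image_of_mem π hD1⟩)
        refine le_of_mul_le_mul_right ?_ (pow_pos hpos M₀)
        calc (#(D.image π) : ℝ) * (#(D.image π) : ℝ) ^ M₀ = (#(D.image π) : ℝ) ^ (M₀ + 1) :=
              (pow_succ' _ _).symm
          _ ≤ (#((D.image π) ^ 3) : ℝ) ^ M₀ := by exact_mod_cast h
          _ ≤ (C ^ 3 * #(D.image π)) ^ M₀ :=
              pow_le_pow_left₀ (Nat.cast_nonneg _) (image_pow_growth π hD1 hDs hD3) _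
          _ = _ := by rw [mul_pow, ← pow_mul]
      have hker : π.ker ≠ ⊤ := fun h => by
        obtain ⟨z, hz⟩ := hπ (U 1)
        have h1 : U (1 : ZMod r) = 1 := hz ▸ MonoidHom.mem_ker.1 (h ▸ Subgroup.mem_top z)
        have := congrFun (congrFun (congrArg Subtype.val h1) 0) 1
        simp [U] at this
      choose f hf using hπ
      refine hcover π.ker hker ((D.image π).image fun y => f y * x) (fun y hy => ?_) (3 * M₀ + 1)
        (by rw [hn]; nlinarith) ?_
      · refine ⟨f (π y) * x, mem_image_of_mem _ (mem_image_of_mem π hy), ?_⟩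
        rw [MonoidHom.mem_ker]
        simp [hf, mul_assoc]
      · rw [pow_succ]
        exact mul_le_mul_of_nonneg_right ((Nat.cast_le.2 card_image_le).trans hπD) hC0
    have hfull := hk (by omega) hqp D hD1 hDs
      (hproj (MonoidHom.fst _ _) fun y => ⟨(y, 1), rfl⟩)
      (hproj (MonoidHom.snd _ _) fun y => ⟨(1, y), rfl⟩)
    have hfull' : D ^ (k + 3) = univ := eq_univ_of_forall fun z =>
      Finset.pow_subset_pow_right hD1 (Nat.le_add_right k 3) (hfull ▸ mem_univ z)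
    have hgle : g ≤ C ^ (k + 1) * #D := by
      have hDpos : (0 : ℝ) < #D := Nat.cast_pos.2 (card_pos.2 ⟨1, hD1⟩)
      refine le_of_mul_le_mul_right ?_ (pow_pos hDpos k)
      calc g * (#D : ℝ) ^ k = (#(D ^ (k + 3)) : ℝ) * (#D : ℝ) ^ k := by rw [hfull', card_univ]
        _ ≤ (#(D ^ 3) : ℝ) ^ (k + 1) := by
            exact_mod_cast Helfgott.card_pow_mul_le hDs ⟨1, hD1⟩ k
        _ ≤ (C * #D) ^ (k + 1) := pow_le_pow_left₀ (Nat.cast_nonneg _) hD3 _
        _ = _ := by ring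
    have hM0 : 0 ≤ sqNorm ν := sqNorm_nonneg _
    refine hbig.not_ge ?_
    calc (g * sqNorm ν) ^ 4 ≤ (C ^ (k + 1) * #D * sqNorm ν) ^ 4 :=
          pow_le_pow_left₀ (by positivity) (mul_le_mul_of_nonneg_right hgle hM0) 4
      _ ≤ (C ^ (k + 1) * C) ^ 4 := by rw [mul_assoc]; gcongr
      _ = C ^ (4 * (k + 2)) := by ring
      _ ≤ q := (hCpow _ (by rw [hn]; nlinarith)).le
  -- iteration
  set M : ℕ → ℝ := fun i => sqNorm (walk s (2 ^ i * l)) with hMdef
  have hmono : ∀ i, M (i + 1) ≤ M i := fun i => by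
    have heq : mconv (walk s (2 ^ i * l)) (walk s (2 ^ i * l)) = walk s (2 ^ (i + 1) * l) := by
      funext z
      rw [show 2 ^ (i + 1) * l = 2 ^ i * l + 2 ^ i * l by ring, walk_add]
      rfl
    simp only [hMdef, ← heq]
    refine (sqNorm_mconv_le_left (walk_nonneg s _) _).trans ?_
    rw [sum_walk, one_pow, one_mul]
  have hM : ∀ i, (g * M i) ^ 4 ≤ q ∨ K ^ i * M i ≤ 1 := by
    intro i
    induction i with
    | zero =>
      refine .inr ?_
      rw [pow_zero, one_mul]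
      calc M 0 ≤ ∑ x, walk s (2 ^ 0 * l) x * 1 := sum_le_sum fun x _ => by
            rw [sq]
            refine mul_le_mul_of_nonneg_left ?_ (walk_nonneg _ _ _)
            rw [← sum_walk s (2 ^ 0 * l)]
            exact single_le_sum (fun y _ => walk_nonneg s (2 ^ 0 * l) y) (mem_univ x)
        _ = 1 := by simp [sum_walk]
    | succ i ih =>
      have hsucc : (g * M i) ^ 4 ≤ q → (g * M (i + 1)) ^ 4 ≤ q := fun h =>
        (pow_le_pow_left₀ (mul_nonneg hg0 (sqNorm_nonneg _))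
          (mul_le_mul_of_nonneg_left (hmono i) hg0) 4).trans h
      rcases ih with ih | ih
      · exact .inl (hsucc ih)
      rcases hstep _ (Nat.le_mul_of_pos_left l (pow_pos two_pos i)) with h | h
      · exact .inl (hsucc h)
      · refine .inr ?_
        rw [← two_mul, ← mul_assoc, ← pow_succ'] at h
        calc K ^ (i + 1) * M (i + 1) = K ^ i * (K * M (i + 1)) := by ring
          _ ≤ K ^ i * M i := mul_le_mul_of_nonneg_left h (by positivity)
          _ ≤ 1 := ih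
  refine ⟨2 ^ (9 * e) * l, ?_, ?_⟩
  · calc 2 ^ (9 * e) * l ≤ 2 ^ (9 * e) * (8 * Nat.log 2 q) := Nat.mul_le_mul_left _ hl
      _ = _ := by rw [← mul_assoc, mul_comm (2 ^ (9 * e)) 8]
  · refine (hM (9 * e)).elim id fun h => ?_
    rw [mul_comm 9 e, pow_mul, hKe] at h
    rw [mul_comm 9 e]
    have hgq : g ≤ (q : ℝ) ^ 9 := by
      have h1 : Fintype.card (SL2 (ZMod p) × SL2 (ZMod q)) ≤ q ^ 9 := by
        rw [Fintype.card_prod]
        calc Fintype.card (SL2 (ZMod p)) * Fintype.card (SL2 (ZMod q)) ≤ p ^ 3 * q ^ 3 :=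
              Nat.mul_le_mul Helfgott.card_SL2_le Helfgott.card_SL2_le
          _ ≤ (q ^ 2) ^ 3 * q ^ 3 := by gcongr
          _ = q ^ 9 := by ring
      simp only [g]
      exact_mod_cast h1
    have h0 : 0 ≤ M (e * 9) := sqNorm_nonneg _
    calc (g * M (e * 9)) ^ 4 ≤ ((q : ℝ) ^ 9 * M (e * 9)) ^ 4 := by gcongr
      _ ≤ 1 := pow_le_one₀ (by positivity) h
      _ ≤ q := by exact_mod_cast (show 1 ≤ q by omega)

/-- **A uniform gap modulo two primes.** -/
theorem exists_gap_prod {φ : FreeGroup (Fin 2) →* SL2 ℤ} (hφ : Function.Injective φ) :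
    ∃ (γ : ℝ) (N : ℕ), 0 < γ ∧ ∀ (p q : ℕ) [Fact p.Prime] [Fact q.Prime], N < q → q < p →
      p ≤ q ^ 2 → ∀ f : SL2 (ZMod p) × SL2 (ZMod q) → ℝ, ∑ x, f x = 0 →
        ∃ c, γ * ∑ x, f x ^ 2 ≤ disp (stepMod₂ φ p q c) f := by
  obtain ⟨C, N, hC⟩ := sqNorm_walk_prod_le hφ
  refine ⟨1 - gapConst C, max N 9, by linarith [gapConst_lt_one C],
    fun p q _ _ hq hqp hp2 f hf => exists_disp_ge (stepMod₂_inv φ) (fun r b hb hb0 he => ?_) hf⟩
  have hq9 : 9 < q := lt_of_le_of_lt (le_max_right _ _) hq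
  obtain ⟨L, hLC, hM⟩ := hC p q (lt_of_le_of_lt (le_max_left _ _) hq) hqp hp2
  refine sq_le_of_decay (by omega) hLC ?_
  have h := walk_eigenvalue_bound (quasirandom_prod hqp.le) (stepMod₂ φ p q) hb hb0 he L
  set m := sqNorm (walk (stepMod₂ φ p q) L)
  set g : ℝ := (Fintype.card (SL2 (ZMod p) × SL2 (ZMod q)) : ℝ)
  have hq0 : (9 : ℝ) ≤ q := by exact_mod_cast hq9.le
  have hd : (q : ℝ) ≤ 3 * (((q - 1) / 2 : ℕ) : ℝ) := by
    exact_mod_cast (show q ≤ 3 * ((q - 1) / 2) by omega)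
  set t := (r ^ 2) ^ L with ht
  have ht0 : 0 ≤ t := by positivity
  have h1 : (q : ℝ) * t ≤ 3 * (g * m) := by
    calc (q : ℝ) * t ≤ 3 * (((q - 1) / 2 : ℕ) : ℝ) * t := mul_le_mul_of_nonneg_right hd ht0
      _ = 3 * ((((q - 1) / 2 : ℕ) : ℝ) * t) := mul_assoc ..
      _ ≤ _ := by linarith
  refine le_of_mul_le_mul_left ?_ (pow_pos (show (0 : ℝ) < q by linarith) 3)
  calc (q : ℝ) ^ 3 * (q * t ^ 4) = (q * t) ^ 4 := by ring
    _ ≤ (3 * (g * m)) ^ 4 := pow_le_pow_left₀ (by positivity) h1 4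
    _ = 81 * (g * m) ^ 4 := by ring
    _ ≤ 81 * q := by gcongr
    _ ≤ (q * q) * q := by gcongr; nlinarith
    _ = _ := by ring

/-- **The gap modulo two primes for a finite set.** -/
theorem gap_prod_of_not_virtSolvable {S : Finset (SL2 ℤ)}
    (h : ¬ VirtSolvable (Subgroup.closure (S : Set (SL2 ℤ)))) :
    ∃ (c : ℝ) (N : ℕ), 0 < c ∧ ∀ (p q : ℕ) [Fact p.Prime] [Fact q.Prime], N < q → q < p →
      p ≤ q ^ 2 → ∀ f : SL2 (ZMod p) × SL2 (ZMod q) → ℝ, ∑ x, f x = 0 →
        ∃ s ∈ S, c * ∑ x, f x ^ 2 ≤ disp (red₂ p q s) f := by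
  have hSne : S.Nonempty := by
    rcases S.eq_empty_or_nonempty with rfl | h' <;> [skip; exact h']
    refine absurd ?_ h
    have : Subsingleton (Subgroup.closure ((∅ : Finset (SL2 ℤ)) : Set (SL2 ℤ))) := by
      rw [coe_empty, Subgroup.closure_empty]
      infer_instance
    exact ⟨⊤, inferInstance, inferInstance⟩
  obtain ⟨f₀, hf₀⟩ :=
    (virtSolvable_or_free (Subgroup.fg_iff _ |>.2 ⟨_, rfl, S.finite_toSet⟩)).resolve_left h
  set φ := (Subgroup.closure (S : Set (SL2 ℤ))).subtype.comp f₀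
  obtain ⟨γ, N, hγ, hgap⟩ := exists_gap_prod (φ := φ) (Subtype.val_injective.comp hf₀)
  have hW := fun c : Letter => disp_map_le (g := φ (letter c)) (f₀ (letter c)).2
  choose W hW0 hW using hW
  set T := ∑ c, W c
  have hT : 0 ≤ T := sum_nonneg fun c _ => hW0 c
  refine ⟨γ / (T + 1), N, by positivity, fun p q _ _ hq hqp hp2 f hf => ?_⟩
  by_contra! hall
  set σ := ∑ x, f x ^ 2
  obtain ⟨c, hc⟩ := hgap p q hq hqp hp2 f hf
  have hσ0 : 0 ≤ σ := sum_nonneg fun _ _ => sq_nonneg _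
  have hε : 0 ≤ γ / (T + 1) * σ := by positivity
  have h1 : γ * σ ≤ T * (γ / (T + 1) * σ) :=
    hc.trans ((hW c (red₂ p q) f _ (fun s hs => (hall s hs).le) hε).trans
      (mul_le_mul_of_nonneg_right (single_le_sum (fun c _ => hW0 c) (mem_univ c)) hε))
  have hσ : σ = 0 := by
    have h2 : (T + 1) * (γ / (T + 1) * σ) = γ * σ := by field_simp
    have h3 : γ / (T + 1) * σ = 0 := by linarith
    exact (mul_eq_zero.1 h3).resolve_left (by positivity)
  obtain ⟨s, hs⟩ := hSne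
  have := hall s hs
  rw [hσ, mul_zero] at this
  linarith [disp_nonneg (red₂ p q s) f]

end FA.GroupSieve

end
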