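import Fermat.Agent.GroupSieve.ProductGap
import Fermat.Agent.GroupSieve.LargeSieve

/-!
# The large sieve in a thin group

Words of length `n` whose reductions avoid a fixed positive proportion of `SL₂ (𝔽_p)` for every
prime are exponentially rare.
-/

set_option autoImplicit false

noncomputable section

namespace FA.GroupSieve

open FA.StrongApprox FA.BourgainGamburd Finset
open scoped Classical

variable {S : Finset (SL2 ℤ)}

/-- **Equidistribution modulo two primes.** -/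
theorem equidistributed_prod (h1 : (1 : SL2 ℤ) ∈ S)
    (h : ¬ VirtSolvable (Subgroup.closure (S : Set (SL2 ℤ)))) :
    ∃ (θ : ℝ) (N : ℕ), 0 < θ ∧ θ < 1 ∧ ∀ (p q : ℕ) [Fact p.Prime] [Fact q.Prime], N < q → q < p →
      p ≤ q ^ 2 → ∀ n z, |hits (red₂ p q) S n z -
        (#S : ℝ) ^ n / Fintype.card (SL2 (ZMod p) × SL2 (ZMod q))| ≤ (#S : ℝ) ^ n * θ ^ n := by
  obtain ⟨c, N, hc, hgap⟩ := gap_prod_of_not_virtSolvable h
  obtain ⟨h0, hlt, hr⟩ := rate_spec ⟨1, h1⟩ hc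
  exact ⟨rate S c, N, h0, hlt, fun p q _ _ hq hqp hp2 =>
    abs_hits_sub_le _ h1 h0.le hr (hgap p q hq hqp hp2)⟩

/-- **The large sieve**: membership in sets of density at most `3 / 4` modulo all primes is
exponentially rare. -/
theorem sieve (h1 : (1 : SL2 ℤ) ∈ S) (h : ¬ VirtSolvable (Subgroup.closure (S : Set (SL2 ℤ)))) :
    ∃ C ρ : ℝ, 0 < ρ ∧ ρ < 1 ∧ ∀ (P : SL2 ℤ → Prop)
      (bad : ∀ p : ℕ, [Fact p.Prime] → Finset (SL2 (ZMod p))),
      (∀ (p : ℕ) [Fact p.Prime], 16 < p → 4 * #(bad p) ≤ 3 * Fintype.card (SL2 (ZMod p))) →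
      (∀ (p : ℕ) [Fact p.Prime], 16 < p → ∀ g, P g → red p g ∈ bad p) →
      ∀ (n : ℕ) (A : Finset (Fin n → S)), (∀ w ∈ A, P (wordProd w)) →
        (#A : ℝ) ≤ C * ρ ^ n * (#S : ℝ) ^ n := by
  obtain ⟨θ, N, hθ0, hθ1, hequi⟩ := equidistributed_prod h1 h
  have hfact : ∀ p : Nat.Primes, Fact (p : ℕ).Prime := fun p => ⟨p.2⟩
  obtain ⟨C, ρ, h0, hlt, hls⟩ := large_sieve (S := S) (G := fun p => SL2 (ZMod (p : ℕ)))
    (fun p => red (p : ℕ)) (D := 3) (N := max N 16) (fun p => Helfgott.card_SL2_le) hθ0 hθ1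
    (fun p q hq hqp hp2 n z => hequi p q ((le_max_left _ _).trans_lt hq) hqp hp2 n z)
    (η := 1 / 4) (by norm_num)
  refine ⟨C, ρ, h0, hlt, fun P bad hbad hP n A hA => hls (fun p => bad p) (fun p hp => ?_) n A
    fun w hw p hp => hP p ((le_max_right _ _).trans_lt hp) _ (hA w hw)⟩
  have h4 : (4 : ℝ) * #(bad p) ≤ 3 * Fintype.card (SL2 (ZMod (p : ℕ))) := by
    exact_mod_cast hbad p ((le_max_right _ _).trans_lt hp)
  linarith

end FA.GroupSieve

end
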